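/-
Tower A1 (row S48, RES) / sub-tower A1-KUM (the Kummer map) — FROZEN interface definitions.
Sub-architect: helper822.  Namespace `Fermat.Agent.S48.Kum`.
Do not edit; propose changes via a note kind='question' stmt='S48'.

GENERIC port of `Fermat/Agent/S29/M4b/Defs.lean`: the group `Γ ≤ SL(2,ℤ)` (for Tower A1:
`Γ₁(M)`) and the function field `F ⊆ ℚ̄((q))` (for Tower A1: `ℚ̄ · F₁(M)`) are PARAMETERS.
For `Γ = Γ₀(N)`, `F = FF N` everything below is definitionally the S29 object.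

* `IsGood Γ G`      : `G` holomorphic on `ℍ`, `Γ`-invariant, all `SL₂(ℤ)`-translates of at most
                      exponential growth (`S24.H648.goodRing N` for `Γ₀(N)`).
* `Realises Γ F u G`: `G` is good and its `q`-expansion at `i∞` is `u ∈ F` (coefficients embedded
                      by the fixed `Deg457.iotaC : ℚ̄ → ℂ`).
* `IsTwisted Γ p c U`: `U` holomorphic, not identically `0`, `U ∘ γ = ζ_p ^ c(γ) · U`, `U ^ p` good.
* `IsKum Γ F p c x` : `x ∈ Pic⁰(F)` is the Kummer class of the character `c`.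
* `IsParHom Γ c`    : `c` additive, zero on elements of trace `±2` and on torsion elements.
* `IsFactor`, `IsTransfer`, `IsTransferEx` : the transfer (cohomological Hecke operator) with
                      respect to an arbitrary finite family `A : I → GL₂(ℝ)` of coset
                      representatives.
-/
import Fermat.Agent.S29.M4b.Defs

set_option autoImplicit false

noncomputable section

open ModularCurve AlgebraicCurve UpperHalfPlane
open scoped MatrixGroups Manifold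

namespace Fermat.Agent.S48.Kum

open Fermat.Agent.S24 Fermat.Agent.S29

/-- The type of function fields: intermediate fields `ℚ̄ ⊆ F ⊆ ℚ̄((q))`. -/
abbrev KF : Type := IntermediateField Kbar (LaurentSeries Kbar)

/-- `G` is a good function for `Γ`: holomorphic on `ℍ`, `Γ`-invariant, and every
`SL₂(ℤ)`-translate has at most exponential growth at `i∞`. -/
def IsGood (Γ : Subgroup SL(2, ℤ)) (G : ℍ → ℂ) : Prop :=
  MDifferentiable 𝓘(ℂ) 𝓘(ℂ) G ∧ (∀ γ ∈ Γ, ∀ τ : ℍ, G (γ • τ) = G τ) ∧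
    ∀ g : SL(2, ℤ), H648.ExpGrowth (fun τ => G (g • τ))

/-- `G : ℍ → ℂ` realises `u ∈ F`: `G` is good for `Γ` and its `q`-expansion at `i∞` is `u`. -/
def Realises (Γ : Subgroup SL(2, ℤ)) (F : KF) (u : F) (G : ℍ → ℂ) : Prop :=
  IsGood Γ G ∧ H708.qexpFun 1 G = coeffMap Deg457.iotaC ((u : F) : LaurentSeries Kbar)

/-- `U` transforms under `Γ` by the character `γ ↦ ζ_p ^ c(γ)`. -/
def HasChar (Γ : Subgroup SL(2, ℤ)) (p : ℕ) (c : Γ → ZMod p) (U : ℍ → ℂ) : Prop :=
  ∀ (γ : Γ) (τ : ℍ), U ((γ : SL(2, ℤ)) • τ) = M4b.zetaP p ^ (c γ).val * U τ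

/-- `U` is a twisted function of character `c`. -/
structure IsTwisted (Γ : Subgroup SL(2, ℤ)) (p : ℕ) (c : Γ → ZMod p) (U : ℍ → ℂ) : Prop where
  mdiff : MDifferentiable 𝓘(ℂ) 𝓘(ℂ) U
  ne_zero : ∃ τ : ℍ, U τ ≠ 0
  hasChar : HasChar Γ p c U
  pow_good : IsGood Γ (fun τ => U τ ^ p)

/-- **The Kummer relation.**  `x ∈ Pic⁰(F)` is the Kummer class of the character `c` of `Γ`:
`x = [D]`, `p • D = div f`, and after clearing poles by a `p`-th power `t ^ p` the function
`f * t ^ p` is (the `q`-expansion of) the `p`-th power of a twisted function of character `c`. -/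
def IsKum (Γ : Subgroup SL(2, ℤ)) (F : KF) (p : ℕ) (c : Γ → ZMod p) (x : Pic0 Kbar F) : Prop :=
  ∃ (f t : F) (U : ℍ → ℂ), t ≠ 0 ∧ H455.IsKummerClass (p : ℤ) f x ∧
    IsTwisted Γ p c U ∧ Realises Γ F (f * t ^ p) (fun τ => U τ ^ p)

/-- `c : Γ → A` is an additive character vanishing on all elements of trace `±2`
(cusp stabilisers, `-1`) and on all torsion (elliptic) elements. -/
structure IsParHom (Γ : Subgroup SL(2, ℤ)) {A : Type*} [AddCommGroup A] (c : Γ → A) : Prop where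
  map_mul : ∀ γ γ' : Γ, c (γ * γ') = c γ + c γ'
  parabolic : ∀ γ : Γ, (((γ : SL(2, ℤ)) : Matrix (Fin 2) (Fin 2) ℤ).trace = 2 ∨
    ((γ : SL(2, ℤ)) : Matrix (Fin 2) (Fin 2) ℤ).trace = -2) → c γ = 0
  elliptic : ∀ (γ : Γ) (n : ℕ), 0 < n → γ ^ n = 1 → c γ = 0

section Transfer

variable (Γ : Subgroup SL(2, ℤ)) {I : Type*}

/-- `A i * γ = δ * A j` in `GL₂(ℝ)`, with `(j, δ) = q`. -/
def IsFactor (A : I → GL (Fin 2) ℝ) (γ : Γ) (i : I) (q : I × Γ) : Prop :=
  A i * Matrix.SpecialLinearGroup.mapGL ℝ (γ : SL(2, ℤ)) =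
    Matrix.SpecialLinearGroup.mapGL ℝ ((q.2 : Γ) : SL(2, ℤ)) * A q.1

/-- `c'` is the transfer of `c` along the representatives `A`: `c'(γ) = ∑ᵢ c(δᵢ)` for EVERY
factorisation `Aᵢ γ = δᵢ A_{π i}`. -/
def IsTransfer [Fintype I] {B : Type*} [AddCommMonoid B] (A : I → GL (Fin 2) ℝ)
    (c c' : Γ → B) : Prop :=
  ∀ (γ : Γ) (π : I → I) (δ : I → Γ), (∀ i, IsFactor Γ A γ i (π i, δ i)) → c' γ = ∑ i, c (δ i)

/-- Every `γ ∈ Γ` permutes the representatives `A`. -/
def HasFactors (A : I → GL (Fin 2) ℝ) : Prop :=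
  ∀ γ : Γ, ∃ (π : Equiv.Perm I) (δ : I → Γ), ∀ i, IsFactor Γ A γ i (π i, δ i)

/-- Existential form of the transfer: for every `γ` there is SOME factorisation
`Aᵢ γ = δᵢ A_{π i}` (`π` a permutation) with `c'(γ) = ∑ᵢ c(δᵢ)`.
(`HasFactors` + `IsTransfer` imply `IsTransferEx`; this is the form used by the pieces.) -/
def IsTransferEx [Fintype I] {B : Type*} [AddCommMonoid B] (A : I → GL (Fin 2) ℝ)
    (c c' : Γ → B) : Prop :=
  ∀ γ : Γ, ∃ (π : Equiv.Perm I) (δ : I → Γ),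
    (∀ i, IsFactor Γ A γ i (π i, δ i)) ∧ c' γ = ∑ i, c (δ i)

theorem isTransferEx_of [Fintype I] {B : Type*} [AddCommMonoid B] {A : I → GL (Fin 2) ℝ}
    {c c' : Γ → B} (hfac : HasFactors Γ A) (htr : IsTransfer Γ A c c') :
    IsTransferEx Γ A c c' := fun γ => by
  obtain ⟨π, δ, h⟩ := hfac γ
  exact ⟨π, δ, h, htr γ π δ h⟩

end Transfer

end Fermat.Agent.S48.Kum
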