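/-
Tower A1 / A1-KUM (helper822): basic API for the frozen definitions of `Kum/Defs.lean`
(good functions, characters, realisations).  Generic port of `S29/M4b/H822/Basic.lean`.
-/
import Fermat.Agent.S48.Kum.Defs
import Fermat.Agent.S29.M4b.H822.K4Uniq
import Fermat.Agent.S29.M4b.H822.K4Basic

set_option autoImplicit false

noncomputable section

open ModularCurve AlgebraicCurve UpperHalfPlane
open scoped MatrixGroups Manifold

namespace Fermat.Agent.S48.Kum

open Fermat.Agent.S24 Fermat.Agent.S29 Fermat.Agent.S29.M4b Fermat.Agent.S29.M4b.H822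

/-! ### Good functions -/

section Good

variable {Γ : Subgroup SL(2, ℤ)}

theorem isGood_const (Γ : Subgroup SL(2, ℤ)) (c : ℂ) : IsGood Γ (fun _ => c) :=
  ⟨mdifferentiable_const, fun _ _ _ => rfl, fun _ => H648.expGrowth_const c⟩

theorem IsGood.mul {G H : ℍ → ℂ} (hG : IsGood Γ G) (hH : IsGood Γ H) : IsGood Γ (G * H) := by
  obtain ⟨h1, h2, h3⟩ := hG
  obtain ⟨h1', h2', h3'⟩ := hH
  refine ⟨h1.mul h1', fun γ hγ τ => ?_, fun g => ?_⟩
  · show G (γ • τ) * H (γ • τ) = G τ * H τ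
    rw [h2 γ hγ τ, h2' γ hγ τ]
  · exact (h3 g).mul (h3' g)

theorem IsGood.pow {G : ℍ → ℂ} (hG : IsGood Γ G) (n : ℕ) : IsGood Γ (G ^ n) := by
  induction n with
  | zero =>
    have : (G ^ 0 : ℍ → ℂ) = fun _ => (1 : ℂ) := by
      funext τ
      simp
    rw [this]
    exact isGood_const Γ 1
  | succ n ih =>
    rw [pow_succ]
    exact ih.mul hG

theorem IsGood.mono {Γ' : Subgroup SL(2, ℤ)} {G : ℍ → ℂ} (h : IsGood Γ' G) (hle : Γ ≤ Γ') :
    IsGood Γ G :=
  ⟨h.1, fun γ hγ τ => h.2.1 γ (hle hγ) τ, h.2.2⟩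

/-- A `Γ`-good function is good for the trivial level: it lies in `goodRing 0`
(`Γ₀(0) = {± T ^ n}`), provided `T ∈ Γ`. -/
theorem IsGood.periodic {G : ℍ → ℂ} (hG : IsGood Γ G) (hT : ModularGroup.T ∈ Γ) :
    Function.Periodic (G ∘ ofComplex) (1 : ℝ) := by
  intro w
  by_cases hw : 0 < Complex.im w
  · have hw' : 0 < Complex.im (w + ((1 : ℝ) : ℂ)) := by simpa using hw
    simp only [Function.comp_apply, ofComplex_apply_of_im_pos hw', ofComplex_apply_of_im_pos hw]
    have h := hG.2.1 _ hT ⟨w, hw⟩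
    rw [← h]
    congr 1
    apply UpperHalfPlane.ext
    rw [UpperHalfPlane.modular_T_smul, UpperHalfPlane.coe_vadd]
    simp [add_comm]
  · have hw0 : Complex.im w ≤ 0 := not_lt.mp hw
    have hw' : Complex.im (w + ((1 : ℝ) : ℂ)) ≤ 0 := by simpa using hw0
    simp only [Function.comp_apply]
    rw [ofComplex_apply_of_im_nonpos hw', ofComplex_apply_of_im_nonpos hw0]

theorem IsGood.isMerInf {G : ℍ → ℂ} (hG : IsGood Γ G) (hT : ModularGroup.T ∈ Γ) :
    H708.IsMerInf 1 G := by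
  refine ⟨hG.1, ?_, ?_⟩
  · have := hG.periodic hT
    simpa using this
  · have h := hG.2.2 1
    simp only [one_smul] at h
    exact H882.isBounded_mul_qh_pow_of_expGrowth h

theorem IsGood.hasQExp {G : ℍ → ℂ} (hG : IsGood Γ G) (hT : ModularGroup.T ∈ Γ) :
    H708.HasQExp 1 G (H708.qexpFun 1 G) :=
  H708.HasQExp.of_isMerInf (hG.isMerInf hT)

/-- A holomorphic `Γ`-invariant function whose `p`-th power is good is good. -/
theorem isGood_of_pow {V : ℍ → ℂ} {p : ℕ} (hp : p ≠ 0)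
    (hV : MDifferentiable 𝓘(ℂ) 𝓘(ℂ) V)
    (hinv : ∀ γ ∈ Γ, ∀ τ : ℍ, V (γ • τ) = V τ)
    (hpow : IsGood Γ (fun τ => V τ ^ p)) : IsGood Γ V :=
  ⟨hV, hinv, fun g => expGrowth_of_pow hp (hpow.2.2 g)⟩

end Good

/-! ### Characters -/

section Char

variable {Γ : Subgroup SL(2, ℤ)} {p : ℕ} [NeZero p]

theorem hasChar_mul {c c' : Γ → ZMod p} {U U' : ℍ → ℂ}
    (h : HasChar Γ p c U) (h' : HasChar Γ p c' U') :
    HasChar Γ p (c + c') (fun τ => U τ * U' τ) := by
  intro γ τ
  show U _ * U' _ = _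
  rw [h γ τ, h' γ τ, Pi.add_apply, zetaP_pow_val_add]
  ring

theorem hasChar_pow_invariant {c : Γ → ZMod p} {U : ℍ → ℂ}
    (h : HasChar Γ p c U) (γ : Γ) (τ : ℍ) :
    U ((γ : SL(2, ℤ)) • τ) ^ p = U τ ^ p := by
  rw [h γ τ, mul_pow, ← pow_mul, mul_comm (c γ).val p, pow_mul, zetaP_pow_self, one_pow, one_mul]

end Char

/-! ### Realisations -/

section Realises

variable {Γ : Subgroup SL(2, ℤ)} {F : KF}

theorem Realises.isGood {u : F} {G : ℍ → ℂ} (h : Realises Γ F u G) : IsGood Γ G := h.1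

theorem Realises.hasQExp (hT : ModularGroup.T ∈ Γ) {u : F} {G : ℍ → ℂ}
    (h : Realises Γ F u G) :
    H708.HasQExp 1 G (coeffMap Deg457.iotaC ((u : F) : LaurentSeries Kbar)) :=
  ⟨h.1.isMerInf hT, h.2⟩

theorem realises_of_hasQExp {u : F} {G : ℍ → ℂ} (hG : IsGood Γ G)
    (h : H708.HasQExp 1 G (coeffMap Deg457.iotaC ((u : F) : LaurentSeries Kbar))) :
    Realises Γ F u G :=
  ⟨hG, h.2⟩

theorem Realises.mul (hT : ModularGroup.T ∈ Γ) {u v : F} {G H : ℍ → ℂ}
    (hu : Realises Γ F u G) (hv : Realises Γ F v H) : Realises Γ F (u * v) (G * H) := by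
  refine realises_of_hasQExp (hu.1.mul hv.1) ?_
  have := (hu.hasQExp hT).mul (hv.hasQExp hT)
  simpa using this

theorem Realises.pow (hT : ModularGroup.T ∈ Γ) {u : F} {G : ℍ → ℂ}
    (hu : Realises Γ F u G) (n : ℕ) : Realises Γ F (u ^ n) (G ^ n) := by
  refine realises_of_hasQExp (hu.1.pow n) ?_
  have := (hu.hasQExp hT).pow n
  simpa using this

/-- A realisation of a nonzero element is not the zero function. -/
theorem Realises.ne_zero (hT : ModularGroup.T ∈ Γ) {u : F} {G : ℍ → ℂ}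
    (h : Realises Γ F u G) (hu : u ≠ 0) : G ≠ 0 := by
  intro hG
  have h1 := ((h.hasQExp hT).eq_zero_iff).mpr hG
  have h2 : ((u : F) : LaurentSeries Kbar) = 0 :=
    coeffMap_iotaC_injective (by rw [h1, map_zero])
  exact hu (Subtype.ext h2)

/-- The realised element is determined by the function. -/
theorem Realises.unique_left {u v : F} {G : ℍ → ℂ} (hu : Realises Γ F u G)
    (hv : Realises Γ F v G) : u = v := by
  apply Subtype.ext
  apply coeffMap_iotaC_injective
  rw [← hu.2, ← hv.2]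

/-- The function is determined by the realised element. -/
theorem Realises.unique_right (hT : ModularGroup.T ∈ Γ) {u : F} {G H : ℍ → ℂ}
    (hG : Realises Γ F u G) (hH : Realises Γ F u H) : G = H :=
  (hG.hasQExp hT).eq_of_eq (hH.hasQExp hT)

end Realises

end Fermat.Agent.S48.Kum
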