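/-
Tower A1 (row S48, RES) / sub-tower A1-KUM (the Kummer map) — PIECES and TOP ASSEMBLY.
Sub-architect: helper822.  Namespace `Fermat.Agent.S48.Kum`.

GENERIC in the group `Γ ≤ SL(2,ℤ)` and the function field `F ⊆ ℚ̄((q))`; port of
`Fermat/Agent/S29/M4b/Top.lean`.  A piece is DONE when it proves one of the `Prop`s below for
`Γ = Γ₁(M)`, `F = ℚ̄·F₁(M)` (or generically).

* dictionary axioms (owners: A1-FF): `DictInter`, `DictMero`, `NormAn`, `DiaAn`;
* pieces: `PieceK1`, `PieceK2`, `PieceK3`, `PieceUniq`, `PieceInj`, `PieceAdd`,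
  `PieceHecke` (for a correspondence `C : Corr F` and representatives `A`),
  `PieceDia` (for a semilinear automorphism `δ` and `a` normalising `Γ`);
* assembly: `exists_kummerMap` (the map `κ`), `kummerMap_hecke`, `kummerMap_dia`.
-/
import Fermat.Agent.S48.Kum.Defs

set_option autoImplicit false

noncomputable section

open ModularCurve AlgebraicCurve UpperHalfPlane
open scoped MatrixGroups Manifold

namespace Fermat.Agent.S48.Kum

open Fermat.Agent.S24 Fermat.Agent.S29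

/-! ### Correspondences and diamond automorphisms -/

/-- A correspondence on the curve with function field `F`: a second function field `F'` with two
`ℚ̄`-embeddings `φ ψ : F → F'` and the Prelude hypotheses needed to define
`Pic0.correspondence φ ψ = ψ_* φ^*`.  (Tower A1: `F' = ℚ̄·F₁(M;p)`, `ψ` = inclusion,
`φ` = `q ↦ q^p`.) -/
structure Corr (F : KF) where
  F' : Type
  [field : Field F']
  [alg : Algebra Kbar F']
  [hpd : HasPrincipalDivisors Kbar F']
  φ : F →ₐ[Kbar] F'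
  ψ : F →ₐ[Kbar] F'
  hφ : φ.toRingHom.IsIntegral
  hψ : ψ.toRingHom.IsIntegral
  hFI : FundamentalIdentityAlong Kbar φ hφ
  hfin : FiniteAlong Kbar ψ
  hN : NormFormulaAlong Kbar ψ hfin

attribute [instance] Corr.field Corr.alg Corr.hpd

/-- The operator `ψ_* φ^*` on `Pic⁰(F)`. -/
def Corr.op {F : KF} (C : Corr F) : Pic0 Kbar F →+ Pic0 Kbar F :=
  Pic0.correspondence C.φ C.ψ C.hφ C.hψ C.hFI C.hfin C.hN

/-- The norm map `u ↦ Norm_ψ (φ u)` on `F`. -/
def Corr.norm {F : KF} (C : Corr F) (u : F) : F := H455.normAlong C.ψ (C.φ u)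

/-- Conjugation by `a` on `Γ` (`a` normalises `Γ`). -/
def conjΓ (Γ : Subgroup SL(2, ℤ)) (a : SL(2, ℤ)) (ha : ∀ γ ∈ Γ, a * γ * a⁻¹ ∈ Γ) (γ : Γ) : Γ :=
  ⟨a * (γ : SL(2, ℤ)) * a⁻¹, ha γ γ.2⟩

/-! ### Dictionary axioms (inputs from A1-FF) -/

section Dict

variable (Γ : Subgroup SL(2, ℤ)) (F : KF)

/-- DICT-INTER: a good function whose `q`-expansion has coefficients in `ℚ̄` lies in `F`. -/
def DictInter : Prop :=
  ∀ (G : ℍ → ℂ) (s : LaurentSeries Kbar), IsGood Γ G →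
    H708.qexpFun 1 G = coeffMap Deg457.iotaC s → s ∈ F

/-- DICT-MERO: every element of `F` is a quotient of two realised elements. -/
def DictMero : Prop :=
  ∀ u : F, ∃ (u₁ u₂ : F) (G₁ G₂ : ℍ → ℂ), u₂ ≠ 0 ∧ u * u₂ = u₁ ∧
    Realises Γ F u₁ G₁ ∧ Realises Γ F u₂ G₂

/-- NORM-AN: the analytic norm formula for the correspondence `C` with representatives `A`:
if `G` realises `u` then `∏ᵢ G ∘ Aᵢ` realises `Norm_ψ (φ u)`. -/
def NormAn {I : Type*} [Fintype I] (C : Corr F) (A : I → GL (Fin 2) ℝ) : Prop :=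
  ∀ (u : F) (G : ℍ → ℂ), Realises Γ F u G →
    Realises Γ F (C.norm u) (fun τ => ∏ i, G (A i • τ))

/-- DIA-AN: the automorphism `δ` of `F` is composition with `a` on realisations. -/
def DiaAn (δ : SemilinearAut Kbar F) (a : SL(2, ℤ)) : Prop :=
  ∀ (u : F) (G : ℍ → ℂ), Realises Γ F u G → Realises Γ F (δ • u) (fun τ => G (a • τ))

end Dict

/-! ### The pieces -/

section Pieces

variable (Γ : Subgroup SL(2, ℤ)) (F : KF) (p : ℕ)

/-- PIECE `K1` (twisted Eisenstein series). -/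
def PieceK1 : Prop :=
  ∀ {c : Γ → ZMod p}, IsParHom Γ c → ∃ U : ℍ → ℂ, IsTwisted Γ p c U

/-- PIECE `K3` (descent `ℂ → ℚ̄`). -/
def PieceK3 : Prop :=
  ∀ {c : Γ → ZMod p}, IsParHom Γ c → ∀ {U : ℍ → ℂ}, IsTwisted Γ p c U →
    ∃ (U' : ℍ → ℂ) (u : F), IsTwisted Γ p c U' ∧ Realises Γ F u (fun τ => U' τ ^ p)

/-- PIECE `K2` (dictionary of places: `p ∣ ord_v u` for every place `v`). -/
def PieceK2 : Prop :=
  ∀ {c : Γ → ZMod p}, IsParHom Γ c → ∀ {U : ℍ → ℂ} {u : F}, IsTwisted Γ p c U →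
    Realises Γ F u (fun τ => U τ ^ p) → ∃ x : Pic0 Kbar F, H455.IsKummerClass (p : ℤ) u x

/-- PIECE `K4-UNIQ`. -/
def PieceUniq : Prop :=
  ∀ {c : Γ → ZMod p} {x x' : Pic0 Kbar F}, IsKum Γ F p c x → IsKum Γ F p c x' → x = x'

/-- PIECE `K4-INJ`. -/
def PieceInj : Prop :=
  ∀ {c : Γ → ZMod p}, IsKum Γ F p c (0 : Pic0 Kbar F) → c = 0

/-- PIECE `K4-ADD`. -/
def PieceAdd : Prop :=
  ∀ {c c' : Γ → ZMod p} {x x' : Pic0 Kbar F},
    IsKum Γ F p c x → IsKum Γ F p c' x' → IsKum Γ F p (c + c') (x + x')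

/-- PIECE `K4-HECKE` for the correspondence `C` and the representatives `A`. -/
def PieceHecke {I : Type*} [Fintype I] (C : Corr F) (A : I → GL (Fin 2) ℝ) : Prop :=
  ∀ {c c' : Γ → ZMod p}, IsTransferEx Γ A c c' →
    ∀ {x : Pic0 Kbar F}, IsKum Γ F p c x → IsKum Γ F p c' (C.op x)

/-- PIECE `K4-DIAMOND` for the automorphism `δ` and the normalising element `a`. -/
def PieceDia (δ : SemilinearAut Kbar F) (a : SL(2, ℤ)) (ha : ∀ γ ∈ Γ, a * γ * a⁻¹ ∈ Γ) : Prop :=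
  ∀ {c : Γ → ZMod p} {x : Pic0 Kbar F}, IsKum Γ F p c x →
    IsKum Γ F p (fun γ => c (conjΓ Γ a ha γ)) (δ • x)

end Pieces

/-! ### Assembly -/

section Assembly

variable {Γ : Subgroup SL(2, ℤ)} {F : KF} {p : ℕ}

theorem isKum_exists (h1 : PieceK1 Γ p) (h3 : PieceK3 Γ F p) (h2 : PieceK2 Γ F p)
    {c : Γ → ZMod p} (hc : IsParHom Γ c) : ∃ x : Pic0 Kbar F, IsKum Γ F p c x := by
  obtain ⟨U, hU⟩ := h1 hc
  obtain ⟨U', u, hU', hu⟩ := h3 hc hU
  obtain ⟨x, hx⟩ := h2 hc hU' hu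
  refine ⟨x, u, 1, U', one_ne_zero, hx, hU', ?_⟩
  simpa using hu

theorem isKum_torsion {c : Γ → ZMod p} {x : Pic0 Kbar F} (h : IsKum Γ F p c x) :
    (p : ℤ) • x = 0 := by
  obtain ⟨f, t, U, -, hx, -, -⟩ := h
  exact hx.zsmul_eq_zero

open Classical in
/-- The Kummer map: `κ c` is THE Kummer class of `c` (and `0` if there is none). -/
def kummerMap (Γ : Subgroup SL(2, ℤ)) (F : KF) (p : ℕ) (c : Γ → ZMod p) : Pic0 Kbar F :=
  if h : ∃ x : Pic0 Kbar F, IsKum Γ F p c x then h.choose else 0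

theorem isKum_kummerMap (h1 : PieceK1 Γ p) (h3 : PieceK3 Γ F p) (h2 : PieceK2 Γ F p)
    {c : Γ → ZMod p} (hc : IsParHom Γ c) : IsKum Γ F p c (kummerMap Γ F p c) := by
  have h := isKum_exists h1 h3 h2 hc
  rw [kummerMap, dif_pos h]
  exact h.choose_spec

theorem kummerMap_eq (hu : PieceUniq Γ F p) {c : Γ → ZMod p} {x : Pic0 Kbar F}
    (h : IsKum Γ F p c x) : kummerMap Γ F p c = x := by
  have h' : ∃ x : Pic0 Kbar F, IsKum Γ F p c x := ⟨x, h⟩
  rw [kummerMap, dif_pos h']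
  exact hu h'.choose_spec h

theorem kummerMap_torsion (c : Γ → ZMod p) : (p : ℤ) • kummerMap Γ F p c = 0 := by
  unfold kummerMap
  split_ifs with h
  · exact isKum_torsion h.choose_spec
  · exact smul_zero _

/-- **Output of sub-tower A1-KUM** for a fixed group, field and modulus, from the six basic
pieces: the Kummer map `κ = kummerMap Γ F p` is additive and injective on parabolic characters,
takes values in the `p`-torsion, and `κ c` is characterised by the relation `IsKum`. -/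
theorem exists_kummerMap (h1 : PieceK1 Γ p) (h3 : PieceK3 Γ F p) (h2 : PieceK2 Γ F p)
    (hu : PieceUniq Γ F p) (hi : PieceInj Γ F p) (ha : PieceAdd Γ F p) :
    (∀ c, IsParHom Γ c → IsKum Γ F p c (kummerMap Γ F p c)) ∧
    (∀ c, (p : ℤ) • kummerMap Γ F p c = 0) ∧
    (∀ c c', IsParHom Γ c → IsParHom Γ c' →
      kummerMap Γ F p (c + c') = kummerMap Γ F p c + kummerMap Γ F p c') ∧
    (∀ c, IsParHom Γ c → kummerMap Γ F p c = 0 → c = 0) ∧
    (∀ c x, IsKum Γ F p c x → kummerMap Γ F p c = x) := by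
  refine ⟨fun c hc => isKum_kummerMap h1 h3 h2 hc, kummerMap_torsion, fun c c' hc hc' => ?_,
    fun c hc h0 => ?_, fun c x h => kummerMap_eq hu h⟩
  · exact kummerMap_eq hu (ha (isKum_kummerMap h1 h3 h2 hc) (isKum_kummerMap h1 h3 h2 hc'))
  · have h := isKum_kummerMap h1 h3 h2 hc
    rw [h0] at h
    exact hi h

/-- Hecke equivariance of the Kummer map: `κ c' = T (κ c)` whenever `c'` is the transfer of `c`
along the representatives `A` of the correspondence `C` (`T = C.op`). -/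
theorem kummerMap_hecke (h1 : PieceK1 Γ p) (h3 : PieceK3 Γ F p) (h2 : PieceK2 Γ F p)
    (hu : PieceUniq Γ F p) {I : Type*} [Fintype I] (C : Corr F) (A : I → GL (Fin 2) ℝ)
    (hh : PieceHecke Γ F p C A)
    {c c' : Γ → ZMod p} (hc : IsParHom Γ c) (htr : IsTransferEx Γ A c c') :
    kummerMap Γ F p c' = C.op (kummerMap Γ F p c) :=
  kummerMap_eq hu (hh htr (isKum_kummerMap h1 h3 h2 hc))

/-- Diamond equivariance of the Kummer map: `κ (c ∘ conj_a) = δ • κ c`. -/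
theorem kummerMap_dia (h1 : PieceK1 Γ p) (h3 : PieceK3 Γ F p) (h2 : PieceK2 Γ F p)
    (hu : PieceUniq Γ F p) (δ : SemilinearAut Kbar F) (a : SL(2, ℤ))
    (ha : ∀ γ ∈ Γ, a * γ * a⁻¹ ∈ Γ) (hd : PieceDia Γ F p δ a ha)
    {c : Γ → ZMod p} (hc : IsParHom Γ c) :
    kummerMap Γ F p (fun γ => c (conjΓ Γ a ha γ)) = δ • kummerMap Γ F p c :=
  kummerMap_eq hu (hd (isKum_kummerMap h1 h3 h2 hc))

end Assembly

end Fermat.Agent.S48.Kum
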