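/-
Tower A1 / A1-KUM (helper822): the pieces `K4-HECKE` and `K4-DIAMOND` of the Kummer map,
GENERIC in `(Γ, F)`, from the analytic norm formula `NormAn` resp. the diamond formula `DiaAn`.
Generic port of `S29/M4b/H822/Hecke*.lean`.
-/
import Fermat.Agent.S48.Kum.Top
import Fermat.Agent.S48.Kum.Basic

set_option autoImplicit false

noncomputable section

open ModularCurve AlgebraicCurve UpperHalfPlane
open scoped MatrixGroups Manifold

namespace Fermat.Agent.S48.Kum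

open Fermat.Agent.S24 Fermat.Agent.S29 Fermat.Agent.S29.M4b Fermat.Agent.S29.M4b.H822

variable {Γ : Subgroup SL(2, ℤ)} {F : KF} {p : ℕ}

/-! ### The norm on `F` -/

theorem Corr.norm_mul (C : Corr F) (u v : F) : C.norm (u * v) = C.norm u * C.norm v := by
  unfold Corr.norm
  rw [map_mul, H455.normAlong_mul]

theorem Corr.norm_pow (C : Corr F) (u : F) (n : ℕ) : C.norm (u ^ n) = C.norm u ^ n := by
  unfold Corr.norm
  rw [map_pow, H455.normAlong_pow]

theorem Corr.norm_ne_zero (C : Corr F) {u : F} (hu : u ≠ 0) : C.norm u ≠ 0 :=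
  H455.normAlong_ne_zero C.ψ C.hfin ((map_ne_zero C.φ).mpr hu)

theorem Corr.isKummerClass (C : Corr F) {n : ℤ} {f : F} {x : Pic0 Kbar F}
    (hx : H455.IsKummerClass n f x) : H455.IsKummerClass n (C.norm f) (C.op x) :=
  hx.correspondence C.φ C.ψ C.hφ C.hψ C.hFI C.hfin C.hN

/-! ### The Hecke product of a twisted function -/

section Product

variable {I : Type*} [Fintype I]

theorem SL_smul_eq_mapGL_smul (γ : SL(2, ℤ)) (τ : ℍ) :
    γ • τ = (Matrix.SpecialLinearGroup.mapGL ℝ γ) • τ := rfl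

/-- The transformation law of the Hecke product. -/
theorem hasChar_prod [NeZero p] {A : I → GL (Fin 2) ℝ}
    {c c' : Γ → ZMod p} (htr : IsTransferEx Γ A c c') {U : ℍ → ℂ} (hU : HasChar Γ p c U) :
    HasChar Γ p c' (fun τ => ∏ i, U (A i • τ)) := by
  intro γ τ
  obtain ⟨π, δ, hδ, hc'⟩ := htr γ
  have h1 : ∀ i, U (A i • ((γ : SL(2, ℤ)) • τ)) =
      zetaP p ^ (c (δ i)).val * U (A (π i) • τ) := by
    intro i
    have e : A i • ((γ : SL(2, ℤ)) • τ) = ((δ i : Γ) : SL(2, ℤ)) • (A (π i) • τ) := by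
      rw [SL_smul_eq_mapGL_smul, SL_smul_eq_mapGL_smul, ← mul_smul, ← mul_smul]
      have := hδ i
      unfold IsFactor at this
      rw [this]
    rw [e, hU (δ i) (A (π i) • τ)]
  show ∏ i, U (A i • ((γ : SL(2, ℤ)) • τ)) = zetaP p ^ (c' γ).val * ∏ i, U (A i • τ)
  rw [Finset.prod_congr rfl (fun i _ => h1 i), Finset.prod_mul_distrib,
    Equiv.prod_comp π (fun j => U (A j • τ))]
  congr 1
  rw [hc']
  -- `∏ ζ ^ (c (δ i)).val = ζ ^ (∑ c (δ i)).val`
  have key : ∀ s : Finset I, ∏ i ∈ s, zetaP p ^ (c (δ i)).val =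
      zetaP p ^ (∑ i ∈ s, c (δ i)).val := by
    classical
    intro s
    induction s using Finset.induction_on with
    | empty => simp
    | insert a s ha ih =>
      rw [Finset.prod_insert ha, Finset.sum_insert ha, ih, zetaP_pow_val_add]
  exact key Finset.univ

theorem mdiff_prod {A : I → GL (Fin 2) ℝ} (hdet : ∀ i, 0 < (A i).det.val) {U : ℍ → ℂ}
    (hU : MDifferentiable 𝓘(ℂ) 𝓘(ℂ) U) :
    MDifferentiable 𝓘(ℂ) 𝓘(ℂ) (fun τ => ∏ i, U (A i • τ)) := by
  classical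
  have key : ∀ s : Finset I, MDifferentiable 𝓘(ℂ) 𝓘(ℂ) (fun τ => ∏ i ∈ s, U (A i • τ)) := by
    intro s
    induction s using Finset.induction_on with
    | empty => simpa using (mdifferentiable_const : MDifferentiable 𝓘(ℂ) 𝓘(ℂ) fun _ : ℍ => (1 : ℂ))
    | insert a s ha ih =>
      have h1 : MDifferentiable 𝓘(ℂ) 𝓘(ℂ) (fun τ : ℍ => U (A a • τ)) :=
        hU.comp (UpperHalfPlane.mdifferentiable_smul (hdet a))
      have : (fun τ => ∏ i ∈ insert a s, U (A i • τ)) =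
          (fun τ : ℍ => U (A a • τ)) * (fun τ => ∏ i ∈ s, U (A i • τ)) := by
        funext τ
        rw [Finset.prod_insert ha]
        rfl
      rw [this]
      exact h1.mul ih
  exact key Finset.univ

end Product

/-! ### The pieces -/

/-- PIECE `K4-HECKE` from the analytic norm formula. -/
theorem pieceHecke_of_normAn (hT : ModularGroup.T ∈ Γ) (hp : p ≠ 0) {I : Type*} [Fintype I]
    (C : Corr F) (A : I → GL (Fin 2) ℝ) (hdet : ∀ i, 0 < (A i).det.val)
    (hN : NormAn Γ F C A) : PieceHecke Γ F p C A := by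
  haveI : NeZero p := ⟨hp⟩
  intro c c' htr x h
  obtain ⟨f, t, U, ht, hx, hU, hr⟩ := h
  have hfun : (fun τ => (∏ i, U (A i • τ)) ^ p) = fun τ => ∏ i, (fun σ => U σ ^ p) (A i • τ) := by
    funext τ
    rw [Finset.prod_pow]
  have hreal : Realises Γ F (C.norm f * C.norm t ^ p) (fun τ => (∏ i, U (A i • τ)) ^ p) := by
    have h1 := hN (f * t ^ p) (fun τ => U τ ^ p) hr
    rw [C.norm_mul, C.norm_pow] at h1
    rw [hfun]
    exact h1
  refine ⟨C.norm f, C.norm t, fun τ => ∏ i, U (A i • τ), C.norm_ne_zero ht,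
    C.isKummerClass hx, ?_, hreal⟩
  refine ⟨mdiff_prod hdet hU.mdiff, ?_, hasChar_prod htr hU.hasChar, hreal.1⟩
  have hne : C.norm f * C.norm t ^ p ≠ 0 :=
    mul_ne_zero (C.norm_ne_zero hx.ne_zero) (pow_ne_zero _ (C.norm_ne_zero ht))
  obtain ⟨τ, hτ⟩ := exists_ne_zero_of_ne_zero (hreal.ne_zero hT hne)
  refine ⟨τ, fun h0 => hτ ?_⟩
  show (∏ i, U (A i • τ)) ^ p = 0
  rw [h0, zero_pow hp]

/-- PIECE `K4-DIAMOND` from the diamond formula. -/
theorem pieceDia_of_diaAn (hT : ModularGroup.T ∈ Γ) (hp : p ≠ 0) (δ : SemilinearAut Kbar F)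
    (a : SL(2, ℤ)) (ha : ∀ γ ∈ Γ, a * γ * a⁻¹ ∈ Γ) (hD : DiaAn Γ F δ a) :
    PieceDia Γ F p δ a ha := by
  haveI : NeZero p := ⟨hp⟩
  intro c x h
  obtain ⟨f, t, U, ht, hx, hU, hr⟩ := h
  have hreal : Realises Γ F (δ • f * (δ • t) ^ p) (fun τ => U (a • τ) ^ p) := by
    have h1 := hD (f * t ^ p) (fun τ => U τ ^ p) hr
    rwa [smul_mul', smul_pow'] at h1
  have ht' : δ • t ≠ 0 := by
    rw [SemilinearAut.smul_def]
    exact (map_ne_zero _).mpr ht
  have hf' : δ • f ≠ 0 := by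
    rw [SemilinearAut.smul_def]
    exact (map_ne_zero _).mpr hx.ne_zero
  refine ⟨δ • f, δ • t, fun τ => U (a • τ), ht', hx.smul δ, ?_, hreal⟩
  refine ⟨?_, ?_, ?_, hreal.1⟩
  · have h1 : MDifferentiable 𝓘(ℂ) 𝓘(ℂ) (fun τ : ℍ => (Matrix.SpecialLinearGroup.mapGL ℝ a) • τ) :=
      UpperHalfPlane.mdifferentiable_smul (by simp)
    exact hU.mdiff.comp h1
  · have hne : δ • f * (δ • t) ^ p ≠ 0 := mul_ne_zero hf' (pow_ne_zero _ ht')
    obtain ⟨τ, hτ⟩ := exists_ne_zero_of_ne_zero (hreal.ne_zero hT hne)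
    refine ⟨τ, fun h0 => hτ ?_⟩
    show U (a • τ) ^ p = 0
    rw [h0, zero_pow hp]
  · intro γ τ
    show U (a • ((γ : SL(2, ℤ)) • τ)) = zetaP p ^ (c (conjΓ Γ a ha γ)).val * U (a • τ)
    have e : a • ((γ : SL(2, ℤ)) • τ) = ((conjΓ Γ a ha γ : Γ) : SL(2, ℤ)) • (a • τ) := by
      show a • ((γ : SL(2, ℤ)) • τ) = (a * (γ : SL(2, ℤ)) * a⁻¹) • (a • τ)
      rw [← mul_smul, ← mul_smul, mul_assoc, mul_assoc, inv_mul_cancel, mul_one]
    rw [e, hU.hasChar (conjΓ Γ a ha γ) (a • τ)]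

end Fermat.Agent.S48.Kum
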