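/-
Tower A1 / A1-KUM (helper822): ASSEMBLY of `Res.M4b1Statement` (the Kummer map for `Γ₁(M)` with
its Hecke and diamond equivariance, `Fermat/Agent/S48/Res/PartsOcc.lean`) from the LEAVES of the
sub-tower, via the generic Kummer theory of `Kum/{Top,K4,Hecke}.lean`.

  `m4b1_of_leaves : Leaves → Res.M4b1Statement`

`Leaves` (all for `Γ = Γ₁(M)`, `F = F1Bar M = ℚ̄·F₁(M)`):
* `k1`, `k2`, `k3`      : the pieces `PieceK1`, `PieceK2`, `PieceK3`;
* `inter`, `mero`, `const` : the dictionary axioms `DictInter`, `DictMero`, `DictConst`;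
* `corr`               : `F1.CorrInputs (beta1) (alpha1)` (so that `hecke1 = α_* β^*`);
* `norm`               : the analytic norm formula `NormAn1 M p` for the representatives
                         `repA x = σ_p⁻¹ · H548.heckeRep1 x` of `Γ₁ diag(p,1) Γ₁`;
* `dia`                : the diamond formula `DiaAn` for `diamondAut p` and `σ_p⁻¹`.
-/
import Fermat.Agent.S48.Kum.K4
import Fermat.Agent.S48.Kum.Hecke
import Fermat.Agent.S48.Res.PartsOcc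
import Fermat.Agent.S48.H548.Per1Hecke

set_option autoImplicit false

noncomputable section

open CongruenceSubgroup ModularCurve AlgebraicCurve ModularCurve.Period UpperHalfPlane
open scoped MatrixGroups Manifold OnePoint

namespace Fermat.Agent.S48.Kum

open Fermat.Agent.S24 Fermat.Agent.S29 Fermat.Agent.S48.F1 Fermat.Agent.S48.Res
  Fermat.Agent.S48.H548 Matrix.SpecialLinearGroup

/-! ### Characters of `Γ₁(M)` as functions -/

section OfHom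

variable {M : ℕ} {A : Type*} [AddCommGroup A]

/-- The function `Γ₁(M) → A` underlying an additive character. -/
def ofHom (c : Additive (Gamma1 M) →+ A) : Gamma1 M → A := fun γ => c (Additive.ofMul γ)

@[simp] theorem ofHom_apply (c : Additive (Gamma1 M) →+ A) (γ : Gamma1 M) :
    ofHom c γ = c (Additive.ofMul γ) := rfl

theorem ofHom_add (c c' : Additive (Gamma1 M) →+ A) : ofHom (c + c') = ofHom c + ofHom c' := rfl

theorem eq_zero_of_ofHom {c : Additive (Gamma1 M) →+ A} (h : ofHom c = 0) : c = 0 := by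
  ext γ
  exact congrFun h (Additive.toMul γ)

theorem isParHom_ofHom {c : Additive (Gamma1 M) →+ A} (h : IsPar1 c) :
    IsParHom (Gamma1 M) (ofHom c) where
  map_mul γ γ' := by
    show c (Additive.ofMul (γ * γ')) = _
    rw [ofMul_mul, map_add]
    rfl
  parabolic γ hγ := h.1 γ (by rcases hγ with h | h <;> rw [h] <;> norm_num)
  elliptic γ n hn hγ := h.2 γ (isOfFinOrder_iff_pow_eq_one.mpr ⟨n, hn, hγ⟩)

theorem trace_conj_SL (a g : SL(2, ℤ)) :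
    ((a * g * a⁻¹ : SL(2, ℤ)) : Matrix (Fin 2) (Fin 2) ℤ).trace
      = (g : Matrix (Fin 2) (Fin 2) ℤ).trace := by
  have h1 : ((a * g * a⁻¹ : SL(2, ℤ)) : Matrix (Fin 2) (Fin 2) ℤ)
      = a.1 * g.1 * (a⁻¹ : SL(2, ℤ)).1 := by
    simp
  rw [h1, Matrix.trace_mul_comm, ← mul_assoc]
  have h2 : (a⁻¹ : SL(2, ℤ)).1 * a.1 = 1 := by
    rw [← Matrix.SpecialLinearGroup.coe_mul, inv_mul_cancel, Matrix.SpecialLinearGroup.coe_one]
  rw [h2, one_mul]

theorem isPar1_diaHom1 [NeZero M] (a : SL(2, ℤ)) (ha : a ∈ Gamma0 M)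
    {c : Additive (Gamma1 M) →+ A} (h : IsPar1 c) : IsPar1 (diaHom1 a ha A c) := by
  refine ⟨fun γ hγ => ?_, fun γ hγ => ?_⟩
  · rw [diaHom1_apply]
    refine h.1 _ ?_
    rw [coe_conj1, trace_conj_SL]
    exact hγ
  · rw [diaHom1_apply]
    refine h.2 _ ?_
    exact (conj1 a ha).isOfFinOrder hγ

end OfHom

/-! ### `T ∈ Γ₁(M)` -/

theorem T_mem_Gamma1 (M : ℕ) : ModularGroup.T ∈ Gamma1 M := by
  rw [Gamma1_mem]
  simp [ModularGroup.T]

/-! ### The representatives of the adjugate double coset -/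

section Rep

variable {M : ℕ} [NeZero M] {p : ℕ} [Fact p.Prime]

/-- The representatives `σ_p⁻¹ · heckeRep1 x` (`x ∈ ℙ¹(𝔽_p)`) of `Γ₁(M) \ Γ₁(M) diag(p,1) Γ₁(M)`:
`repA ∞ = diag(p, 1)`, `repA j = σ_p⁻¹ (1 j; 0 p)`. -/
def repA (hpM : ¬ p ∣ M) (x : OnePoint (ZMod p)) : GL (Fin 2) ℝ :=
  mapGL ℝ (sigmaP M p hpM)⁻¹ * heckeRep1 hpM x

theorem det_repA_pos (hpM : ¬ p ∣ M) (x : OnePoint (ZMod p)) :
    0 < (repA hpM x).det.val := by
  show 0 < ((repA hpM x : GL (Fin 2) ℝ) : Matrix (Fin 2) (Fin 2) ℝ).det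
  unfold repA
  rw [Matrix.GeneralLinearGroup.coe_mul, Matrix.det_mul]
  have h1 : ((mapGL ℝ (sigmaP M p hpM)⁻¹ : GL (Fin 2) ℝ) : Matrix (Fin 2) (Fin 2) ℝ).det = 1 :=
    Fermat.Agent.S21.H381.det_coe_SL _
  rw [h1, one_mul]
  exact det_heckeRep1_pos hpM x

theorem sigmaP_inv_conj_mem (hpM : ¬ p ∣ M) :
    ∀ γ ∈ Gamma1 M, (sigmaP M p hpM)⁻¹ * γ * ((sigmaP M p hpM)⁻¹)⁻¹ ∈ Gamma1 M := fun γ hγ =>
  conj_mem_Gamma1 _ ((Gamma0 M).inv_mem (sigmaP_mem hpM)) ⟨γ, hγ⟩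

/-- The transfer along `repA` of `c ∘ conj σ_p` is `T_p c = heckeHom1 p c`. -/
theorem isTransferEx_repA (hpM : ¬ p ∣ M) {B : Type*} [AddCommGroup B]
    (c : Additive (Gamma1 M) →+ B) :
    IsTransferEx (Gamma1 M) (repA hpM)
      (ofHom (diaHom1 (sigmaP M p hpM) (sigmaP_mem hpM) B c))
      (ofHom (heckeHom1 p hpM B c)) := by
  intro γ
  refine ⟨permOf1 γ, fun x => conjΓ (Gamma1 M) (sigmaP M p hpM)⁻¹ (sigmaP_inv_conj_mem hpM)
    (trf1 hpM γ x), fun x => ?_, ?_⟩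
  · show repA hpM x * mapGL ℝ (γ : SL(2, ℤ)) =
      mapGL ℝ ((sigmaP M p hpM)⁻¹ * ((trf1 hpM γ x : Gamma1 M) : SL(2, ℤ)) *
        ((sigmaP M p hpM)⁻¹)⁻¹) * repA hpM (permOf1 γ x)
    unfold repA
    rw [mul_assoc, trf1_spec hpM γ x, permOf1_apply, inv_inv, map_mul, map_mul, map_inv]
    group
  · rw [ofHom_apply, heckeHom1_apply]
    refine Finset.sum_congr rfl fun x _ => ?_
    rw [ofHom_apply, diaHom1_apply]
    congr 2
    apply Subtype.ext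
    rw [coe_conj1]
    show (trf1 hpM γ x : SL(2, ℤ)) = sigmaP M p hpM * ((sigmaP M p hpM)⁻¹ *
      ((trf1 hpM γ x : Gamma1 M) : SL(2, ℤ)) * ((sigmaP M p hpM)⁻¹)⁻¹) * (sigmaP M p hpM)⁻¹
    rw [inv_inv]
    group

end Rep

/-! ### The leaves -/

local notation "Qbar" => AlgebraicClosure ℚ

/-- NORM-AN for `Γ₁(M)`: if `G` realises `u ∈ ℚ̄·F₁(M)` then `∏ₓ G ∘ repA x` realises
`Norm_α (β u)` (`α` = inclusion, `β = (q ↦ q^p)`, into `ℚ̄·F₁(M;p)`). -/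
def NormAn1 (M : ℕ) [NeZero M] (p : ℕ) [Fact p.Prime] (hpM : ¬ p ∣ M) : Prop :=
  haveI : NeZero p := ⟨(Fact.out : p.Prime).ne_zero⟩
  ∀ (u : F1Bar M) (G : ℍ → ℂ), Realises (Gamma1 M) (F1Bar M) u G →
    Realises (Gamma1 M) (F1Bar M) (H455.normAlong (alpha1 Qbar M p) (beta1 Qbar M p u))
      (fun τ => ∏ x, G (repA hpM x • τ))

/-- DIA-AN for `Γ₁(M)`: `diamondAut p` is composition with `σ_p⁻¹` on realisations. -/
def DiaAn1 (M : ℕ) [NeZero M] (p : ℕ) [Fact p.Prime] (hpM : ¬ p ∣ M) : Prop :=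
  DiaAn (Gamma1 M) (F1Bar M) (SemilinearAut.ofAlgAut (diamondAut Qbar M (unitOf M p)))
    (sigmaP M p hpM)⁻¹

/-- The leaves of sub-tower A1-KUM. -/
structure Leaves : Prop where
  k1 : ∀ (M : ℕ) [NeZero M] (ℓ : ℕ), ℓ.Prime → PieceK1 (Gamma1 M) ℓ
  k2 : ∀ (M : ℕ) [NeZero M] (ℓ : ℕ), ℓ.Prime → PieceK2 (Gamma1 M) (F1Bar M) ℓ
  k3 : ∀ (M : ℕ) [NeZero M] (ℓ : ℕ), ℓ.Prime → PieceK3 (Gamma1 M) (F1Bar M) ℓ
  inter : ∀ (M : ℕ) [NeZero M], DictInter (Gamma1 M) (F1Bar M)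
  mero : ∀ (M : ℕ) [NeZero M], DictMero (Gamma1 M) (F1Bar M)
  const : ∀ (M : ℕ) [NeZero M], DictConst (F1Bar M)
  corr : ∀ (M : ℕ) [NeZero M] (p : ℕ) [Fact p.Prime], ¬ p ∣ M →
    haveI : NeZero p := ⟨(Fact.out : p.Prime).ne_zero⟩
    CorrInputs (beta1 Qbar M p) (alpha1 Qbar M p)
  norm : ∀ (M : ℕ) [NeZero M] (p : ℕ) [Fact p.Prime] (hpM : ¬ p ∣ M), NormAn1 M p hpM
  dia : ∀ (M : ℕ) [NeZero M] (p : ℕ) [Fact p.Prime] (hpM : ¬ p ∣ M), DiaAn1 M p hpM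

/-! ### The assembly -/

section Assembly

variable {M : ℕ} [NeZero M]

/-- The correspondence `T_p = α_* β^*` of `J₁(M)` as a `Corr`. -/
def corrOf (p : ℕ) [NeZero p] (hC : CorrInputs (beta1 Qbar M p) (alpha1 Qbar M p)) :
    Corr (F1Bar M) where
  F' := F1pL Qbar M p
  hpd := hC.snd.snd.fst
  φ := beta1 Qbar M p
  ψ := alpha1 Qbar M p
  hφ := hC.fst
  hψ := hC.snd.fst
  hFI := hC.snd.snd.snd.snd.1
  hfin := hC.snd.snd.snd.fst
  hN := hC.snd.snd.snd.snd.2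

omit [NeZero M] in
theorem corrOf_op (p : ℕ) [NeZero p] (hC : CorrInputs (beta1 Qbar M p) (alpha1 Qbar M p))
    (x : J1 M) : (corrOf p hC).op x = hecke1 M p x := by
  rw [hecke1_eq]
  show _ = heckeL Qbar M p x
  unfold heckeL corrOp
  rw [dif_pos hC]
  rfl

/-- The Kummer map of `Γ₁(M)` with values in `J₁(M)[ℓ]`. -/
def kappa1 (M ℓ : ℕ) (c : Additive (Gamma1 M) →+ ZMod ℓ) : J1T M ℓ :=
  ⟨kummerMap (Gamma1 M) (F1Bar M) ℓ (ofHom c),
    Pic0.mem_torsion.mpr (kummerMap_torsion (ofHom c))⟩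

@[simp] theorem coe_kappa1 (M ℓ : ℕ) (c : Additive (Gamma1 M) →+ ZMod ℓ) :
    ((kappa1 M ℓ c : J1T M ℓ) : J1 M) = kummerMap (Gamma1 M) (F1Bar M) ℓ (ofHom c) := rfl

end Assembly

/-- **Sub-tower A1-KUM**: `Res.M4b1Statement` from the leaves. -/
theorem m4b1_of_leaves (L : Leaves) : Res.M4b1Statement := by
  intro M ℓ _ hℓ
  have hT := T_mem_Gamma1 M
  have hℓ0 : ℓ ≠ 0 := hℓ.ne_zero
  have h1 : PieceK1 (Gamma1 M) ℓ := L.k1 M ℓ hℓ
  have h2 : PieceK2 (Gamma1 M) (F1Bar M) ℓ := L.k2 M ℓ hℓ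
  have h3 : PieceK3 (Gamma1 M) (F1Bar M) ℓ := L.k3 M ℓ hℓ
  have hu : PieceUniq (Gamma1 M) (F1Bar M) ℓ := pieceUniq hT (L.inter M) hℓ0
  have hi : PieceInj (Gamma1 M) (F1Bar M) ℓ := pieceInj hT (L.mero M) (L.const M) hℓ0
  have ha : PieceAdd (Gamma1 M) (F1Bar M) ℓ := pieceAdd hT hℓ0
  obtain ⟨hK, -, hadd, hinj, -⟩ := exists_kummerMap h1 h3 h2 hu hi ha
  refine ⟨kappa1 M ℓ, fun c c' hc hc' => ?_, fun c hc h0 => ?_, fun p _ hpM _ c hc => ⟨?_, ?_⟩⟩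
  · apply Subtype.ext
    rw [AddSubgroup.coe_add, coe_kappa1, coe_kappa1, coe_kappa1, ofHom_add]
    exact hadd _ _ (isParHom_ofHom hc) (isParHom_ofHom hc')
  · have h0' : kummerMap (Gamma1 M) (F1Bar M) ℓ (ofHom c) = 0 := by
      have := congrArg (fun x : J1T M ℓ => (x : J1 M)) h0
      simpa using this
    exact eq_zero_of_ofHom (hinj _ (isParHom_ofHom hc) h0')
  · -- Hecke
    haveI : NeZero p := ⟨(Fact.out : p.Prime).ne_zero⟩
    have hC := L.corr M p hpM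
    have hN : NormAn (Gamma1 M) (F1Bar M) (corrOf p hC) (repA hpM) := L.norm M p hpM
    have hh : PieceHecke (Gamma1 M) (F1Bar M) ℓ (corrOf p hC) (repA hpM) :=
      pieceHecke_of_normAn hT hℓ0 (corrOf p hC) (repA hpM) (det_repA_pos hpM) hN
    have hpar := isParHom_ofHom (isPar1_diaHom1 (sigmaP M p hpM) (sigmaP_mem hpM) hc)
    have key := kummerMap_hecke h1 h3 h2 hu (corrOf p hC) (repA hpM) hh hpar
      (isTransferEx_repA hpM c)
    apply Subtype.ext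
    rw [coe_heckeT, coe_kappa1, coe_kappa1, key, corrOf_op]
  · -- diamond
    have hD : DiaAn1 M p hpM := L.dia M p hpM
    have hd : PieceDia (Gamma1 M) (F1Bar M) ℓ
        (SemilinearAut.ofAlgAut (diamondAut Qbar M (unitOf M p))) (sigmaP M p hpM)⁻¹
        (sigmaP_inv_conj_mem hpM) :=
      pieceDia_of_diaAn (p := ℓ) hT hℓ0
        (SemilinearAut.ofAlgAut (diamondAut Qbar M (unitOf M p))) (sigmaP M p hpM)⁻¹
        (sigmaP_inv_conj_mem hpM) hD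
    have hpar := isParHom_ofHom (isPar1_diaHom1 (sigmaP M p hpM) (sigmaP_mem hpM) hc)
    have key := kummerMap_dia h1 h3 h2 hu _ _ (sigmaP_inv_conj_mem hpM) hd hpar
    have hfun : (fun γ => ofHom (diaHom1 (sigmaP M p hpM) (sigmaP_mem hpM) (ZMod ℓ) c)
        (conjΓ (Gamma1 M) (sigmaP M p hpM)⁻¹ (sigmaP_inv_conj_mem hpM) γ)) = ofHom c := by
      funext γ
      rw [ofHom_apply, diaHom1_apply, ofHom_apply]
      congr 2
      apply Subtype.ext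
      rw [coe_conj1]
      show sigmaP M p hpM * ((sigmaP M p hpM)⁻¹ * (γ : SL(2, ℤ)) * ((sigmaP M p hpM)⁻¹)⁻¹) *
        (sigmaP M p hpM)⁻¹ = γ
      rw [inv_inv]
      group
    rw [hfun] at key
    apply Subtype.ext
    rw [coe_diamondT, coe_kappa1, coe_kappa1, diamond1_apply, key]

end Fermat.Agent.S48.Kum
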