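/-
Tower A1 / A1-KUM (helper822): the ANALYTIC REALISATION `an : F →+* MerH`, GENERIC in `(Γ, F)`,
constructed from the dictionary axiom `DictMero Γ F` (every element of `F` is a quotient of two
realised elements).  `MerH = Frac (holomorphic functions on ℍ)` (S24).

* `an hT hmero : F →+* MerH`;
* `an_eq_of_realises`  : `Realises Γ F u G → an u = [G]`;
* `realises_of_an_eq`  : `IsGood Γ G → an u = [G] → Realises Γ F u G`.
(Generic version of `S29.H452.an` + `S29.M4b.H822.{an_eq_of_realises, realises_of_an_eq}`.)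
-/
import Fermat.Agent.S48.Kum.Top
import Fermat.Agent.S48.Kum.Basic
import Fermat.Agent.S29.H452.MerGL

set_option autoImplicit false

noncomputable section

open ModularCurve AlgebraicCurve UpperHalfPlane
open scoped MatrixGroups Manifold

namespace Fermat.Agent.S48.Kum

open Fermat.Agent.S24 Fermat.Agent.S24.H624 Fermat.Agent.S29 Fermat.Agent.S29.M4b
  Fermat.Agent.S29.M4b.H822

variable {Γ : Subgroup SL(2, ℤ)} {F : KF}

/-! ### More on good functions and realisations -/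

theorem IsGood.add {G H : ℍ → ℂ} (hG : IsGood Γ G) (hH : IsGood Γ H) : IsGood Γ (G + H) := by
  obtain ⟨h1, h2, h3⟩ := hG
  obtain ⟨h1', h2', h3'⟩ := hH
  refine ⟨h1.add h1', fun γ hγ τ => ?_, fun g => ?_⟩
  · show G (γ • τ) + H (γ • τ) = G τ + H τ
    rw [h2 γ hγ τ, h2' γ hγ τ]
  · exact (h3 g).add (h3' g)

theorem Realises.add (hT : ModularGroup.T ∈ Γ) {u v : F} {G H : ℍ → ℂ}
    (hu : Realises Γ F u G) (hv : Realises Γ F v H) : Realises Γ F (u + v) (G + H) := by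
  refine realises_of_hasQExp (hu.1.add hv.1) ?_
  have := (hu.hasQExp hT).add (hv.hasQExp hT)
  simpa using this

theorem coeffMap_iotaC_algebraMap (c : Kbar) :
    coeffMap Deg457.iotaC (algebraMap Kbar (LaurentSeries Kbar) c) = HahnSeries.C (Deg457.iotaC c) := by
  rw [algebraMap_laurentSeries_eq_single, coeffMap_single]
  rfl

/-- Constants are realised by constant functions. -/
theorem realises_algebraMap (Γ : Subgroup SL(2, ℤ)) (F : KF) (c : Kbar) :
    Realises Γ F (algebraMap Kbar F c) (fun _ => Deg457.iotaC c) := by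
  refine realises_of_hasQExp (isGood_const Γ _) ?_
  have h := H708.HasQExp.const 1 (Deg457.iotaC c)
  have e : (((algebraMap Kbar F c : F)) : LaurentSeries Kbar)
      = algebraMap Kbar (LaurentSeries Kbar) c := rfl
  rw [e, coeffMap_iotaC_algebraMap]
  exact h

theorem realises_one (Γ : Subgroup SL(2, ℤ)) (F : KF) : Realises Γ F (1 : F) (fun _ => (1 : ℂ)) := by
  have h := realises_algebraMap Γ F 1
  simpa using h

theorem realises_zero (Γ : Subgroup SL(2, ℤ)) (F : KF) : Realises Γ F (0 : F) (fun _ => (0 : ℂ)) := by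
  have h := realises_algebraMap Γ F 0
  simpa using h

/-! ### The class of a good function in `MerH` -/

/-- The class in `MerH` of a holomorphic function. -/
def merOf (G : ℍ → ℂ) (hG : MDifferentiable 𝓘(ℂ) 𝓘(ℂ) G) : MerH :=
  algebraMap holoRing MerH ⟨G, hG⟩

theorem merOf_injective {G H : ℍ → ℂ} {hG : MDifferentiable 𝓘(ℂ) 𝓘(ℂ) G}
    {hH : MDifferentiable 𝓘(ℂ) 𝓘(ℂ) H} (h : merOf G hG = merOf H hH) : G = H := by
  have := IsFractionRing.injective holoRing MerH h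
  exact congrArg Subtype.val this

theorem merOf_mul {G H : ℍ → ℂ} (hG : MDifferentiable 𝓘(ℂ) 𝓘(ℂ) G)
    (hH : MDifferentiable 𝓘(ℂ) 𝓘(ℂ) H) :
    merOf (G * H) (hG.mul hH) = merOf G hG * merOf H hH := by
  unfold merOf
  rw [← map_mul]
  rfl

theorem merOf_add {G H : ℍ → ℂ} (hG : MDifferentiable 𝓘(ℂ) 𝓘(ℂ) G)
    (hH : MDifferentiable 𝓘(ℂ) 𝓘(ℂ) H) :
    merOf (G + H) (hG.add hH) = merOf G hG + merOf H hH := by
  unfold merOf
  rw [← map_add]
  rfl

theorem merOf_ne_zero {G : ℍ → ℂ} (hG : MDifferentiable 𝓘(ℂ) 𝓘(ℂ) G) (h : G ≠ 0) :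
    merOf G hG ≠ 0 := by
  intro h0
  apply h
  have h1 : merOf G hG = merOf (0 : ℍ → ℂ) (mdifferentiable_const (c := (0 : ℂ))) := by
    rw [h0]
    unfold merOf
    have : (⟨(0 : ℍ → ℂ), mdifferentiable_const (c := (0 : ℂ))⟩ : holoRing) = 0 := rfl
    rw [this, map_zero]
  exact merOf_injective h1

theorem merOf_congr {G H : ℍ → ℂ} (hG : MDifferentiable 𝓘(ℂ) 𝓘(ℂ) G) (e : G = H) :
    merOf G hG = merOf H (e ▸ hG) := by
  subst e
  rfl

/-! ### The analytic realisation -/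

section An

variable (hT : ModularGroup.T ∈ Γ) (hmero : DictMero Γ F)

theorem exists_pair (hmero : DictMero Γ F) (u : F) :
    ∃ p : (ℍ → ℂ) × (ℍ → ℂ), ∃ u₁ u₂ : F, u₂ ≠ 0 ∧ u * u₂ = u₁ ∧
      Realises Γ F u₁ p.1 ∧ Realises Γ F u₂ p.2 := by
  obtain ⟨u₁, u₂, G₁, G₂, h2, h, hr1, hr2⟩ := hmero u
  exact ⟨(G₁, G₂), u₁, u₂, h2, h, hr1, hr2⟩

/-- The underlying function of `an`. -/
def anFun (hmero : DictMero Γ F) (u : F) : MerH :=
  merOf (exists_pair hmero u).choose.1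
      (exists_pair hmero u).choose_spec.choose_spec.choose_spec.2.2.1.1.1 /
    merOf (exists_pair hmero u).choose.2
      (exists_pair hmero u).choose_spec.choose_spec.choose_spec.2.2.2.1.1

include hT in
/-- The defining property of `anFun`: `an u · [G₂] = [G₁]` for EVERY presentation `u = u₁/u₂`
with `u_i` realised by `G_i`. -/
theorem anFun_spec {u u₁ u₂ : F} {G₁ G₂ : ℍ → ℂ} (h2 : u₂ ≠ 0) (h : u * u₂ = u₁)
    (hr1 : Realises Γ F u₁ G₁) (hr2 : Realises Γ F u₂ G₂) :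
    anFun hmero u * merOf G₂ hr2.1.1 = merOf G₁ hr1.1.1 := by
  obtain ⟨v₁, v₂, hv2, hv, hs1, hs2⟩ := (exists_pair hmero u).choose_spec
  set H₁ := (exists_pair hmero u).choose.1
  set H₂ := (exists_pair hmero u).choose.2
  have hH2 : merOf H₂ hs2.1.1 ≠ 0 := merOf_ne_zero _ (hs2.ne_zero hT hv2)
  -- `u₁ v₂ = v₁ u₂`
  have e : u₁ * v₂ = v₁ * u₂ := by rw [← h, ← hv]; ring
  have hfun : G₁ * H₂ = H₁ * G₂ := by
    have r1 := hr1.mul hT hs2
    have r2 := hs1.mul hT hr2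
    rw [e] at r1
    exact r1.unique_right hT r2
  have hmer : merOf G₁ hr1.1.1 * merOf H₂ hs2.1.1 = merOf H₁ hs1.1.1 * merOf G₂ hr2.1.1 := by
    rw [← merOf_mul, ← merOf_mul]
    exact merOf_congr _ hfun
  show merOf H₁ _ / merOf H₂ _ * merOf G₂ hr2.1.1 = merOf G₁ hr1.1.1
  rw [div_mul_eq_mul_div, div_eq_iff hH2, ← hmer]

include hT in
theorem anFun_mul (u v : F) : anFun hmero (u * v) = anFun hmero u * anFun hmero v := by
  obtain ⟨u₁, u₂, G₁, G₂, hu2, hu, hr1, hr2⟩ := hmero u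
  obtain ⟨v₁, v₂, H₁, H₂, hv2, hv, hs1, hs2⟩ := hmero v
  have h1 := anFun_spec hT hmero hu2 hu hr1 hr2
  have h2 := anFun_spec hT hmero hv2 hv hs1 hs2
  have e : u * v * (u₂ * v₂) = u₁ * v₁ := by rw [← hu, ← hv]; ring
  have h3 := anFun_spec hT hmero (mul_ne_zero hu2 hv2) e (hr1.mul hT hs1) (hr2.mul hT hs2)
  have hG2 : merOf G₂ hr2.1.1 ≠ 0 := merOf_ne_zero _ (hr2.ne_zero hT hu2)
  have hH2 : merOf H₂ hs2.1.1 ≠ 0 := merOf_ne_zero _ (hs2.ne_zero hT hv2)
  have h3' : anFun hmero (u * v) * (merOf G₂ hr2.1.1 * merOf H₂ hs2.1.1)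
      = merOf G₁ hr1.1.1 * merOf H₁ hs1.1.1 := by
    rw [← merOf_mul, ← merOf_mul]
    exact h3
  apply mul_right_cancel₀ (mul_ne_zero hG2 hH2)
  rw [h3', ← h1, ← h2]
  ring

include hT in
theorem anFun_add (u v : F) : anFun hmero (u + v) = anFun hmero u + anFun hmero v := by
  obtain ⟨u₁, u₂, G₁, G₂, hu2, hu, hr1, hr2⟩ := hmero u
  obtain ⟨v₁, v₂, H₁, H₂, hv2, hv, hs1, hs2⟩ := hmero v
  have h1 := anFun_spec hT hmero hu2 hu hr1 hr2
  have h2 := anFun_spec hT hmero hv2 hv hs1 hs2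
  have e : (u + v) * (u₂ * v₂) = u₁ * v₂ + v₁ * u₂ := by rw [← hu, ← hv]; ring
  have h3 := anFun_spec hT hmero (mul_ne_zero hu2 hv2) e
    ((hr1.mul hT hs2).add hT (hs1.mul hT hr2)) (hr2.mul hT hs2)
  have hG2 : merOf G₂ hr2.1.1 ≠ 0 := merOf_ne_zero _ (hr2.ne_zero hT hu2)
  have hH2 : merOf H₂ hs2.1.1 ≠ 0 := merOf_ne_zero _ (hs2.ne_zero hT hv2)
  have h3' : anFun hmero (u + v) * (merOf G₂ hr2.1.1 * merOf H₂ hs2.1.1)
      = merOf G₁ hr1.1.1 * merOf H₂ hs2.1.1 + merOf H₁ hs1.1.1 * merOf G₂ hr2.1.1 := by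
    rw [← merOf_mul, ← merOf_mul, ← merOf_mul, ← merOf_add]
    exact h3
  apply mul_right_cancel₀ (mul_ne_zero hG2 hH2)
  rw [h3', ← h1, ← h2]
  ring

include hT in
theorem anFun_of_realises {u : F} {G : ℍ → ℂ} (hu : Realises Γ F u G) :
    anFun hmero u = merOf G hu.1.1 := by
  have h := anFun_spec hT hmero (one_ne_zero) (mul_one u) hu (realises_one Γ F)
  have h1 : merOf (fun _ : ℍ => (1 : ℂ)) (realises_one Γ F).1.1 = 1 := by
    unfold merOf
    have : (⟨fun _ : ℍ => (1 : ℂ), (realises_one Γ F).1.1⟩ : holoRing) = 1 := rfl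
    rw [this, map_one]
  rwa [h1, mul_one] at h

/-- **The analytic realisation** `F →+* MerH`. -/
def an : F →+* MerH where
  toFun := anFun hmero
  map_one' := by
    rw [anFun_of_realises hT hmero (realises_one Γ F)]
    unfold merOf
    have : (⟨fun _ : ℍ => (1 : ℂ), (realises_one Γ F).1.1⟩ : holoRing) = 1 := rfl
    rw [this, map_one]
  map_mul' := anFun_mul hT hmero
  map_zero' := by
    rw [anFun_of_realises hT hmero (realises_zero Γ F)]
    unfold merOf
    have : (⟨fun _ : ℍ => (0 : ℂ), (realises_zero Γ F).1.1⟩ : holoRing) = 0 := rfl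
    rw [this, map_zero]
  map_add' := anFun_add hT hmero

theorem an_injective : Function.Injective (an hT hmero) := (an hT hmero).injective

/-- **Realised ⟹ analytic.** -/
theorem an_eq_of_realises {u : F} {G : ℍ → ℂ} (hu : Realises Γ F u G) :
    an hT hmero u = merOf G hu.1.1 :=
  anFun_of_realises hT hmero hu

/-- **Analytic ⟹ realised.** -/
theorem realises_of_an_eq {u : F} {G : ℍ → ℂ} (hG : IsGood Γ G)
    (h : an hT hmero u = merOf G hG.1) : Realises Γ F u G := by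
  obtain ⟨u₁, u₂, G₁, G₂, hu2, hu, hr1, hr2⟩ := hmero u
  have h1 : an hT hmero u * merOf G₂ hr2.1.1 = merOf G₁ hr1.1.1 :=
    anFun_spec hT hmero hu2 hu hr1 hr2
  rw [h, ← merOf_mul] at h1
  have hfun : G * G₂ = G₁ := merOf_injective h1
  -- compare `q`-expansions
  have hQ := hG.hasQExp hT
  have hQ2 := hr2.hasQExp hT
  have hQ1 := hr1.hasQExp hT
  have hprod := hQ.mul hQ2
  rw [hfun] at hprod
  have e1 := hprod.unique hQ1
  have hι2 : coeffMap Deg457.iotaC ((u₂ : F) : LaurentSeries Kbar) ≠ 0 := by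
    intro h0
    apply hu2
    apply Subtype.ext
    exact coeffMap_iotaC_injective (h0.trans (map_zero _).symm)
  refine ⟨hG, ?_⟩
  apply mul_right_cancel₀ hι2
  rw [e1, ← map_mul]
  congr 1
  exact (congrArg (fun f : F => (f : LaurentSeries Kbar)) hu).symm

end An

end Fermat.Agent.S48.Kum
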