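/-
Tower A1 / A1-KUM (helper822): `DictMero` is a FIELD-CLOSURE property, GENERIC.

`IsMero Γ F u` : `u ∈ F` is a quotient of two realised elements.  The `IsMero` elements form an
intermediate field `meroField hT ≤ F`; hence `DictMero Γ F` holds as soon as `F` is generated
(as a field, over `ℚ̄`) by `IsMero` elements (`dictMero_of_le`, `dictMero_of_adjoin`).
-/
import Fermat.Agent.S48.Kum.An

set_option autoImplicit false

noncomputable section

open ModularCurve AlgebraicCurve UpperHalfPlane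
open scoped MatrixGroups Manifold

namespace Fermat.Agent.S48.Kum

open Fermat.Agent.S24 Fermat.Agent.S29

variable {Γ : Subgroup SL(2, ℤ)} {F : KF}

/-- `u ∈ F` is a quotient of two realised elements. -/
def IsMero (Γ : Subgroup SL(2, ℤ)) (F : KF) (u : F) : Prop :=
  ∃ (u₁ u₂ : F) (G₁ G₂ : ℍ → ℂ), u₂ ≠ 0 ∧ u * u₂ = u₁ ∧
    Realises Γ F u₁ G₁ ∧ Realises Γ F u₂ G₂

theorem dictMero_iff : DictMero Γ F ↔ ∀ u : F, IsMero Γ F u := Iff.rfl

theorem IsMero.of_realises {u : F} {G : ℍ → ℂ} (h : Realises Γ F u G) : IsMero Γ F u :=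
  ⟨u, 1, G, fun _ => 1, one_ne_zero, mul_one u, h, realises_one Γ F⟩

theorem isMero_algebraMap (Γ : Subgroup SL(2, ℤ)) (F : KF) (c : Kbar) :
    IsMero Γ F (algebraMap Kbar F c) :=
  IsMero.of_realises (realises_algebraMap Γ F c)

theorem IsMero.mul (hT : ModularGroup.T ∈ Γ) {u v : F} (hu : IsMero Γ F u)
    (hv : IsMero Γ F v) : IsMero Γ F (u * v) := by
  obtain ⟨u₁, u₂, G₁, G₂, h2, h, r1, r2⟩ := hu
  obtain ⟨v₁, v₂, H₁, H₂, k2, k, s1, s2⟩ := hv
  refine ⟨u₁ * v₁, u₂ * v₂, _, _, mul_ne_zero h2 k2, ?_, r1.mul hT s1, r2.mul hT s2⟩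
  rw [← h, ← k]
  ring

theorem IsMero.add (hT : ModularGroup.T ∈ Γ) {u v : F} (hu : IsMero Γ F u)
    (hv : IsMero Γ F v) : IsMero Γ F (u + v) := by
  obtain ⟨u₁, u₂, G₁, G₂, h2, h, r1, r2⟩ := hu
  obtain ⟨v₁, v₂, H₁, H₂, k2, k, s1, s2⟩ := hv
  refine ⟨u₁ * v₂ + v₁ * u₂, u₂ * v₂, _, _, mul_ne_zero h2 k2, ?_,
    (r1.mul hT s2).add hT (s1.mul hT r2), r2.mul hT s2⟩
  rw [← h, ← k]
  ring

theorem IsMero.neg (hT : ModularGroup.T ∈ Γ) {u : F} (hu : IsMero Γ F u) :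
    IsMero Γ F (-u) := by
  have h := (isMero_algebraMap Γ F (-1)).mul hT hu
  rwa [map_neg, map_one, neg_one_mul] at h

theorem IsMero.inv {u : F} (hu : IsMero Γ F u) : IsMero Γ F u⁻¹ := by
  obtain ⟨u₁, u₂, G₁, G₂, h2, h, r1, r2⟩ := hu
  by_cases h0 : u = 0
  · rw [h0, inv_zero]
    exact IsMero.of_realises (realises_zero Γ F)
  · have h1 : u₁ ≠ 0 := by
      rw [← h]
      exact mul_ne_zero h0 h2
    refine ⟨u₂, u₁, G₂, G₁, h1, ?_, r2, r1⟩
    rw [← h]
    field_simp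

/-- `IsMero` only depends on the underlying Laurent series. -/
theorem IsMero.congr {u v : F} (hu : IsMero Γ F u) (e : (u : LaurentSeries Kbar) = v) :
    IsMero Γ F v := by
  have : u = v := Subtype.ext e
  rwa [← this]

/-- The field of `IsMero` elements. -/
def meroField (hT : ModularGroup.T ∈ Γ) (F : KF) : KF where
  carrier := {x | ∃ h : x ∈ F, IsMero Γ F ⟨x, h⟩}
  mul_mem' := by
    rintro x y ⟨hx, mx⟩ ⟨hy, my⟩
    exact ⟨mul_mem hx hy, (mx.mul hT my).congr rfl⟩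
  one_mem' := ⟨one_mem F, (IsMero.of_realises (realises_one Γ F)).congr rfl⟩
  add_mem' := by
    rintro x y ⟨hx, mx⟩ ⟨hy, my⟩
    exact ⟨add_mem hx hy, (mx.add hT my).congr rfl⟩
  zero_mem' := ⟨zero_mem F, (IsMero.of_realises (realises_zero Γ F)).congr rfl⟩
  algebraMap_mem' c := ⟨F.algebraMap_mem c, (isMero_algebraMap Γ F c).congr rfl⟩
  inv_mem' := by
    rintro x ⟨hx, mx⟩
    exact ⟨inv_mem hx, mx.inv.congr rfl⟩

theorem mem_meroField (hT : ModularGroup.T ∈ Γ) {x : LaurentSeries Kbar} :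
    x ∈ meroField hT F ↔ ∃ h : x ∈ F, IsMero Γ F ⟨x, h⟩ := Iff.rfl

theorem meroField_le (hT : ModularGroup.T ∈ Γ) : meroField hT F ≤ F := fun _ hx => hx.1

/-- `DictMero` from `F ≤ meroField`. -/
theorem dictMero_of_le (hT : ModularGroup.T ∈ Γ) (h : F ≤ meroField hT F) : DictMero Γ F := by
  intro u
  obtain ⟨_, hu⟩ := h u.2
  exact hu

theorem le_meroField_of_dictMero (hT : ModularGroup.T ∈ Γ) (h : DictMero Γ F) :
    F ≤ meroField hT F := fun x hx => ⟨hx, h ⟨x, hx⟩⟩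

/-- A realised Laurent series of `F` lies in `meroField`. -/
theorem mem_meroField_of_realises (hT : ModularGroup.T ∈ Γ) {u : F} {G : ℍ → ℂ}
    (h : Realises Γ F u G) : (u : LaurentSeries Kbar) ∈ meroField hT F :=
  ⟨u.2, IsMero.of_realises h⟩

/-- Transport of realisations along an inclusion of groups and a map of fields which is the
identity on Laurent series. -/
theorem Realises.transport {Γ' : Subgroup SL(2, ℤ)} {F' : KF} (hle : Γ' ≤ Γ) {u : F} {G : ℍ → ℂ}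
    (h : Realises Γ F u G) (u' : F') (e : (u' : LaurentSeries Kbar) = u) :
    Realises Γ' F' u' G :=
  ⟨h.1.mono hle, by rw [e]; exact h.2⟩

end Fermat.Agent.S48.Kum
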