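/-
Tower A1 / A1-KUM (helper822): the ANALYTIC NORM FORMULA, GENERIC.

`normAn_of_embeddings`: let `Γ' ≤ Γ`, `F`, `F'` function fields with `DictMero`, `ψ φ : F → F'`
(`ψ` "the inclusion", `φ` "`q ↦ q^p`") compatible with realisations (`ψ u` realised by `G`, `φ u` by
`G ∘ B`), `γ x ∈ Γ` (`x : I`) coset representatives with `|I| = [F' : F]` which are separated by
one realised element of `F'`, and `A x` matrices with `G ∘ (B γ_x) = G ∘ A x` for good `G`.
Then  `G realises u  ⟹  ∏ₓ G ∘ A x realises Norm_ψ (φ u)`   (provided the product is good).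

(Generic version of `S29.H452.an_normAlong_beta` + `S29.M4b.H822.realises_heckeNorm`.)
-/
import Fermat.Agent.S48.Kum.An
import Fermat.Agent.S29.H455.NormEmb

set_option autoImplicit false
set_option linter.style.haveILetI false

noncomputable section

open ModularCurve AlgebraicCurve UpperHalfPlane
open scoped MatrixGroups Manifold

namespace Fermat.Agent.S48.Kum

open Fermat.Agent.S24 Fermat.Agent.S24.H624 Fermat.Agent.S29 Fermat.Agent.S29.M4b
  Fermat.Agent.S29.M4b.H822 Fermat.Agent.S29.H452 Matrix.SpecialLinearGroup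

variable {Γ Γ' : Subgroup SL(2, ℤ)} {F F' : KF}

/-- Two ring homs out of `F` into a field which agree on realised elements are equal. -/
theorem ringHom_ext_of_realised (hT : ModularGroup.T ∈ Γ) (hmero : DictMero Γ F)
    {L : Type*} [Field L] (f g : F →+* L)
    (h : ∀ (u : F) (G : ℍ → ℂ), Realises Γ F u G → f u = g u) : f = g := by
  ext u
  obtain ⟨u₁, u₂, G₁, G₂, hu2, hu, hr1, hr2⟩ := hmero u
  have h1 := h u₁ G₁ hr1
  have h2 := h u₂ G₂ hr2
  have hf2 : f u₂ ≠ 0 := (map_ne_zero f).mpr hu2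
  apply mul_right_cancel₀ hf2
  rw [← map_mul, hu, h1, h2, ← map_mul, hu]

theorem merGL_merOf (g : GL (Fin 2) ℝ) (hg : 0 < g.det.val) (G : ℍ → ℂ)
    (hG : MDifferentiable 𝓘(ℂ) 𝓘(ℂ) G) :
    merGL g hg (merOf G hG) = merOf (fun τ => G (g • τ)) (hG.comp (mdifferentiable_smul hg)) := by
  unfold merOf
  rw [merGL_algebraMap]
  rfl

theorem merOf_prod {I : Type*} [Fintype I] (G : I → ℍ → ℂ)
    (hG : ∀ i, MDifferentiable 𝓘(ℂ) 𝓘(ℂ) (G i))
    (hP : MDifferentiable 𝓘(ℂ) 𝓘(ℂ) (fun τ => ∏ i, G i τ)) :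
    merOf (fun τ => ∏ i, G i τ) hP = ∏ i, merOf (G i) (hG i) := by
  unfold merOf
  rw [← map_prod]
  congr 1
  apply Subtype.ext
  funext τ
  rw [SubmonoidClass.coe_finset_prod, Finset.prod_apply]

instance charZero_KF (F : KF) : CharZero F :=
  charZero_of_injective_algebraMap (algebraMap Kbar F).injective

/-- **The analytic norm formula (generic).** -/
theorem normAn_of_embeddings (hT' : ModularGroup.T ∈ Γ') (hle : Γ' ≤ Γ)
    (hmero : DictMero Γ F) (hmero' : DictMero Γ' F')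
    (φ ψ : F →ₐ[Kbar] F')
    (hψ : ∀ (u : F) (G : ℍ → ℂ), Realises Γ F u G → Realises Γ' F' (ψ u) G)
    (B : GL (Fin 2) ℝ) (hB : 0 < B.det.val)
    (hφ : ∀ (u : F) (G : ℍ → ℂ), Realises Γ F u G →
      Realises Γ' F' (φ u) (fun τ => G (B • τ)))
    {I : Type*} [Fintype I] [Nonempty I] (γ : I → SL(2, ℤ)) (hγ : ∀ x, γ x ∈ Γ)
    (A : I → GL (Fin 2) ℝ)
    (hA : ∀ (x : I) (G : ℍ → ℂ), IsGood Γ G → ∀ τ : ℍ, G (B • (γ x • τ)) = G (A x • τ))
    (hcard : Fintype.card I = (letI := algebraAlong ψ; Module.finrank F F'))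
    (hdist : ∃ (w : F') (W : ℍ → ℂ), Realises Γ' F' w W ∧
      ∀ x y : I, (∀ τ : ℍ, W (γ x • τ) = W (γ y • τ)) → x = y)
    (hgood : ∀ G : ℍ → ℂ, IsGood Γ G → IsGood Γ (fun τ => ∏ x, G (A x • τ)))
    (u : F) (G : ℍ → ℂ) (hu : Realises Γ F u G) :
    Realises Γ F (H455.normAlong ψ (φ u)) (fun τ => ∏ x, G (A x • τ)) := by
  classical
  have hT : ModularGroup.T ∈ Γ := hle hT'
  letI := algebraAlong ψ
  have hdetγ : ∀ x, 0 < (mapGL ℝ (γ x) : GL (Fin 2) ℝ).det.val := fun x => det_coe_SL_pos (γ x)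
  -- the embeddings
  let τ : I → (F' →+* MerH) := fun x =>
    ((merGL (mapGL ℝ (γ x)) (hdetγ x) : MerH ≃+* MerH) : MerH →+* MerH).comp (an hT' hmero')
  have hτ_real : ∀ (x : I) (w : F') (W : ℍ → ℂ) (hw : Realises Γ' F' w W),
      τ x w = merOf (fun t => W (γ x • t))
        (hw.1.1.comp (mdifferentiable_smul (hdetγ x))) := by
    intro x w W hw
    show merGL _ _ (an hT' hmero' w) = _
    rw [an_eq_of_realises hT' hmero' hw, merGL_merOf]
    rfl
  have hτ : ∀ x, (τ x).comp (algebraMap F F') = an hT hmero := by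
    intro x
    apply ringHom_ext_of_realised hT hmero
    intro v V hv
    show τ x (ψ v) = _
    rw [hτ_real x (ψ v) V (hψ v V hv), an_eq_of_realises hT hmero hv]
    apply merOf_congr
    funext t
    exact hv.1.2.1 _ (hγ x) t
  have hinj : Function.Injective τ := by
    intro x y hxy
    obtain ⟨w, W, hw, hsep⟩ := hdist
    apply hsep
    have h1 := RingHom.congr_fun hxy w
    rw [hτ_real x w W hw, hτ_real y w W hw] at h1
    exact fun t => congrFun (merOf_injective h1) t
  have hfd : FiniteDimensional F F' := by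
    apply Module.finite_of_finrank_pos
    rw [← hcard]
    exact Fintype.card_pos
  have hsep : Algebra.IsSeparable F F' := Algebra.IsSeparable.of_integral F F'
  have key := H455.norm_eq_prod_of_injective (an hT hmero) τ hτ hinj hcard (φ u)
  have hP := hgood G hu.1
  have hmd : ∀ x : I, MDifferentiable 𝓘(ℂ) 𝓘(ℂ) (fun t : ℍ => G (A x • t)) := by
    intro x
    have h1 : MDifferentiable 𝓘(ℂ) 𝓘(ℂ) (fun t : ℍ => G (B • (γ x • t))) :=
      (hu.1.1.comp (mdifferentiable_smul hB)).comp (mdifferentiable_smul (hdetγ x))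
    have e : (fun t : ℍ => G (A x • t)) = fun t : ℍ => G (B • (γ x • t)) :=
      funext fun t => (hA x G hu.1 t).symm
    rw [e]
    exact h1
  refine realises_of_an_eq hT hmero hP ?_
  show an hT hmero (Algebra.norm F (φ u)) = _
  rw [key, merOf_prod (fun x t => G (A x • t)) hmd hP.1]
  refine Finset.prod_congr rfl fun x _ => ?_
  rw [hτ_real x (φ u) _ (hφ u G hu)]
  apply merOf_congr
  funext t
  exact hA x G hu.1 t

end Fermat.Agent.S48.Kum
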