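/-
Tower A1 / A1-KUM (helper822): the leaf `norm` (`NormAn1 M p`) REDUCED to three inputs.

  `normAn1_of_inputs : DictMero (Γ₁(M)) (F1Bar M) → BetaAn1 M p → DegAlpha1 M p → Cosets1 M p hpM
      → NormAn1 M p hpM`

* `BetaAn1 M p`  (N2): `β = (q ↦ q^p)` is composition with `diag(p,1)` on realisations
                 (goodness for `Γ₁(M) ∩ Γ₀(p)` + `q`-expansion of `G(pτ)`);
* `DegAlpha1 M p` (N3): `[ℚ̄·F₁(M;p) : ℚ̄·F₁(M)] = p + 1` along `α`;
* `Cosets1 M p`  (N4): representatives `γ_x ∈ Γ₁(M)` (`x ∈ ℙ¹(𝔽_p)`) of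
                 `(Γ₁(M) ∩ Γ₀(p)) \ Γ₁(M)` with `diag(p,1) γ_x ∈ Γ₁(M) · repA x`.

Proved here: `DictMero` for `(Γ₁(M) ∩ Γ₀(p), ℚ̄·F₁(M;p))` (`dictMero1p`, from `DictMero` for
`Γ₁(M)` and `BetaAn1`), the realisation of `j(q^p)` by `τ ↦ j(pτ)` and the separation of the
cosets by it, and the assembly through `Kum.normAn_of_embeddings`.
-/
import Fermat.Agent.S48.Kum.Mero
import Fermat.Agent.S48.Kum.Norm
import Fermat.Agent.S48.Kum.M4b1
import Fermat.Agent.S48.H548.NormGood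

set_option autoImplicit false

noncomputable section

open CongruenceSubgroup ModularCurve AlgebraicCurve UpperHalfPlane ModularForm
open scoped MatrixGroups Manifold OnePoint

namespace Fermat.Agent.S48.Kum

open Fermat.Agent.S24 Fermat.Agent.S29 Fermat.Agent.S48.F1 Fermat.Agent.S48.H548
  Matrix.SpecialLinearGroup

local notation "Qbar" => AlgebraicClosure ℚ

/-- The group `Γ₁(M) ∩ Γ₀(p)`. -/
abbrev Gamma1p (M p : ℕ) : Subgroup SL(2, ℤ) := Gamma1 M ⊓ Gamma0 p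

theorem T_mem_Gamma1p (M p : ℕ) : ModularGroup.T ∈ Gamma1p M p := by
  refine Subgroup.mem_inf.mpr ⟨T_mem_Gamma1 M, ?_⟩
  rw [Gamma0_mem]
  simp [ModularGroup.T]

/-! ### The inputs -/

/-- (N2) `β = (q ↦ q^p)` is composition with `diag(p,1)` on realisations. -/
def BetaAn1 (M : ℕ) [NeZero M] (p : ℕ) [NeZero p] : Prop :=
  ∀ (u : F1Bar M) (G : ℍ → ℂ), Realises (Gamma1 M) (F1Bar M) u G →
    Realises (Gamma1p M p) (F1pL Qbar M p) (beta1 Qbar M p u)
      (fun τ => G (heckeDiagMatrix p • τ))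

/-- (N3) The degree of `α`. -/
def DegAlpha1 (M : ℕ) [NeZero M] (p : ℕ) [NeZero p] : Prop :=
  letI := algebraAlong (alpha1 Qbar M p)
  Module.finrank (F1Bar M) (F1pL Qbar M p) = p + 1

/-- (N4) Coset representatives of `(Γ₁(M) ∩ Γ₀(p)) \ Γ₁(M)` adapted to `repA`. -/
def Cosets1 (M : ℕ) [NeZero M] (p : ℕ) [Fact p.Prime] (hpM : ¬ p ∣ M) : Prop :=
  ∃ gam : OnePoint (ZMod p) → SL(2, ℤ), (∀ x, gam x ∈ Gamma1 M) ∧
    (∀ x, ∃ d ∈ Gamma1 M, heckeDiagMatrix p * mapGL ℝ (gam x) = mapGL ℝ d * repA hpM x) ∧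
    ∀ x y, gam x * (gam y)⁻¹ ∈ Gamma0 p → x = y

/-! ### `DictMero` for `Γ₁(M) ∩ Γ₀(p)` -/

section Mero1p

variable {M : ℕ} [NeZero M] {p : ℕ} [NeZero p]

theorem alpha_realises {u : F1Bar M} {G : ℍ → ℂ} (h : Realises (Gamma1 M) (F1Bar M) u G) :
    Realises (Gamma1p M p) (F1pL Qbar M p) (alpha1 Qbar M p u) G :=
  h.transport inf_le_left _ (coe_alpha1 Qbar M p u)

theorem isMero_alpha (hmero : DictMero (Gamma1 M) (F1Bar M)) (u : F1Bar M) :
    IsMero (Gamma1p M p) (F1pL Qbar M p) (alpha1 Qbar M p u) := by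
  obtain ⟨u₁, u₂, G₁, G₂, h2, h, r1, r2⟩ := hmero u
  refine ⟨alpha1 Qbar M p u₁, alpha1 Qbar M p u₂, G₁, G₂, ?_, ?_, alpha_realises r1,
    alpha_realises r2⟩
  · exact (map_ne_zero (alpha1 Qbar M p)).mpr h2
  · rw [← map_mul, h]

theorem isMero_beta (hmero : DictMero (Gamma1 M) (F1Bar M)) (hbeta : BetaAn1 M p)
    (u : F1Bar M) : IsMero (Gamma1p M p) (F1pL Qbar M p) (beta1 Qbar M p u) := by
  obtain ⟨u₁, u₂, G₁, G₂, h2, h, r1, r2⟩ := hmero u
  refine ⟨beta1 Qbar M p u₁, beta1 Qbar M p u₂, _, _, ?_, ?_, hbeta u₁ G₁ r1, hbeta u₂ G₂ r2⟩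
  · exact (map_ne_zero (beta1 Qbar M p)).mpr h2
  · rw [← map_mul, h]

/-- **`DictMero` for `(Γ₁(M) ∩ Γ₀(p), ℚ̄·F₁(M;p))`**. -/
theorem dictMero1p (hmero : DictMero (Gamma1 M) (F1Bar M)) (hbeta : BetaAn1 M p) :
    DictMero (Gamma1p M p) (F1pL Qbar M p) := by
  have hT := T_mem_Gamma1p M p
  apply dictMero_of_le hT
  -- the field of `y ∈ ℚ((q))` with `coeffEmb y` mero
  let K₀ : IntermediateField ℚ (LaurentSeries ℚ) :=
    { Subfield.comap (coeffEmb Qbar)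
        (meroField hT (F1pL Qbar M p)).toSubfield with
      algebraMap_mem' := fun r => by
        show coeffEmb Qbar (algebraMap ℚ (LaurentSeries ℚ) r) ∈ meroField hT (F1pL Qbar M p)
        have : coeffEmb Qbar (algebraMap ℚ (LaurentSeries ℚ) r)
            = algebraMap Qbar (LaurentSeries Qbar) (algebraMap ℚ Qbar r) := by
          rw [algebraMap_apply_eq_single, coeffEmb, coeffMap_single,
            algebraMap_laurent_eq_single]
        rw [this]
        exact (meroField hT (F1pL Qbar M p)).algebraMap_mem _ }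
  have hK₀ : ∀ y : LaurentSeries ℚ, y ∈ K₀ ↔
      coeffEmb Qbar y ∈ meroField hT (F1pL Qbar M p) := fun y => Iff.rfl
  have h1 : F1 M ≤ K₀ := by
    intro y hy
    rw [hK₀]
    have hm := isMero_alpha (p := p) hmero ⟨coeffEmb Qbar y, coeffEmb_mem_laurentBaseChange Qbar hy⟩
    exact ⟨_, hm⟩
  have h2 : (F1 M).map (qExpandₐ p) ≤ K₀ := by
    rintro _ ⟨y, hy, rfl⟩
    rw [hK₀]
    have hm := isMero_beta hmero hbeta ⟨coeffEmb Qbar y, coeffEmb_mem_laurentBaseChange Qbar hy⟩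
    have e : coeffEmb Qbar (qExpand ℚ p y)
        = ((beta1 Qbar M p ⟨coeffEmb Qbar y, coeffEmb_mem_laurentBaseChange Qbar hy⟩ :
            F1pL Qbar M p) : LaurentSeries Qbar) := by
      rw [coe_beta1]
      exact (qExpand_coeffEmb Qbar p y).symm
    show coeffEmb Qbar (qExpand ℚ p y) ∈ _
    rw [e]
    exact ⟨_, hm⟩
  have h3 : F1p M p ≤ K₀ := sup_le h1 h2
  show laurentBaseChange Qbar (F1p M p) ≤ _
  rw [laurentBaseChange, IntermediateField.adjoin_le_iff]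
  rintro _ ⟨y, hy, rfl⟩
  exact (hK₀ y).mp (h3 hy)

end Mero1p

/-! ### `j(q^p)` and the separation of the cosets -/

section Sep

variable (M : ℕ) [NeZero M] (p : ℕ) [NeZero p]

/-- `j(q^p) ∈ ℚ̄·F₁(M;p)`. -/
def jpElt : F1pL Qbar M p :=
  ⟨coeffEmb Qbar (qExpand ℚ p jq),
    coeffEmb_mem_laurentBaseChange Qbar (qExpand_mem_F1p M p (jq_mem_F1 M))⟩

theorem iotaC_comp_algebraMap :
    (Deg457.iotaC).comp (algebraMap ℚ Kbar) = algebraMap ℚ ℂ :=
  Subsingleton.elim _ _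

theorem coeffMap_iotaC_coeffEmb (x : LaurentSeries ℚ) :
    coeffMap Deg457.iotaC (coeffEmb Kbar x) = coeffEmb ℂ x := by
  rw [coeffEmb, coeffMap_coeffMap, iotaC_comp_algebraMap]
  rfl

theorem Jd_eq_scale : H997.Jd p = fun τ => JFun.jFun (Deg457.scaleH p τ) := by
  funext τ
  show Fermat.Agent.S20.L1.jFun (infAff p 0 1 τ) = Fermat.Agent.S20.L1.jFun (Deg457.scaleH p τ)
  congr 1
  apply UpperHalfPlane.ext
  rw [infAff_coe (Nat.pos_of_ne_zero (NeZero.ne p)) one_pos, Deg457.coe_scaleH]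
  simp

theorem isGood_Jd : IsGood (Gamma1p M p) (H997.Jd p) :=
  Fermat.Agent.S48.H332.isGoodFor_of_mem_holN (H997.Jd_mem_holN p p dvd_rfl)
    (fun γ hγ τ => H997.Jd_inv p p dvd_rfl γ (Subgroup.mem_inf.mp hγ).2 τ)

/-- `τ ↦ j(pτ)` realises `j(q^p)`. -/
theorem realises_jpElt : Realises (Gamma1p M p) (F1pL Qbar M p) (jpElt M p) (H997.Jd p) := by
  refine realises_of_hasQExp (isGood_Jd M p) ?_
  show H708.HasQExp 1 (H997.Jd p) (coeffMap Deg457.iotaC (coeffEmb Kbar (qExpand ℚ p jq)))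
  rw [coeffMap_iotaC_coeffEmb, Jd_eq_scale]
  exact Deg457.hasQExp_jFun_scale p

/-- The translates of `τ ↦ j(pτ)` separate the cosets of `Γ₀(p)`. -/
theorem sep_Jd {g h : SL(2, ℤ)} (e : ∀ τ : ℍ, H997.Jd p (g • τ) = H997.Jd p (h • τ)) :
    g * h⁻¹ ∈ Gamma0 p := by
  apply H997.Jd_distinct p
  intro τ
  rw [mul_smul, e, smul_inv_smul]

end Sep

/-! ### The assembly -/

section Main

variable {M : ℕ} [NeZero M] {p : ℕ} [Fact p.Prime]

theorem card_onePoint_zmod : Fintype.card (OnePoint (ZMod p)) = p + 1 := by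
  haveI : NeZero p := ⟨(Fact.out : p.Prime).ne_zero⟩
  show Fintype.card (Option (ZMod p)) = p + 1
  rw [Fintype.card_option, ZMod.card]

/-- **The leaf `norm` from its inputs.** -/
theorem normAn1_of_inputs (hpM : ¬ p ∣ M) (hmero : DictMero (Gamma1 M) (F1Bar M))
    (hbeta : haveI : NeZero p := ⟨(Fact.out : p.Prime).ne_zero⟩; BetaAn1 M p)
    (hdeg : haveI : NeZero p := ⟨(Fact.out : p.Prime).ne_zero⟩; DegAlpha1 M p)
    (hcos : Cosets1 M p hpM) : NormAn1 M p hpM := by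
  haveI : NeZero p := ⟨(Fact.out : p.Prime).ne_zero⟩
  obtain ⟨gam, hgam, hfac, hinj⟩ := hcos
  intro u G hu
  have hB : 0 < (heckeDiagMatrix p).det.val := by
    show 0 < ((heckeDiagMatrix p).det : ℝ)
    rw [det_heckeDiagMatrix (NeZero.ne p)]
    exact_mod_cast Nat.pos_of_ne_zero (NeZero.ne p)
  refine normAn_of_embeddings (T_mem_Gamma1p M p) inf_le_left hmero (dictMero1p hmero hbeta)
    (beta1 Qbar M p) (alpha1 Qbar M p) (fun v V hv => alpha_realises hv)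
    (heckeDiagMatrix p) hB hbeta gam hgam (repA hpM) ?_ ?_ ?_
    (fun V hV => isGood_prod_repA hpM hV) u G hu
  · -- the coset identity
    intro x V hV τ
    obtain ⟨d, hd, hfx⟩ := hfac x
    have h1 : heckeDiagMatrix p • (gam x • τ) = d • (repA hpM x • τ) := by
      have h2 : heckeDiagMatrix p • (gam x • τ)
          = (heckeDiagMatrix p * mapGL ℝ (gam x)) • τ := by
        rw [mul_smul]
        rfl
      rw [h2, hfx, mul_smul]
      rfl
    rw [h1]
    exact hV.2.1 d hd _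
  · -- the degree
    rw [card_onePoint_zmod]
    exact hdeg.symm
  · -- the separation
    refine ⟨jpElt M p, H997.Jd p, realises_jpElt M p, fun x y e => ?_⟩
    exact hinj x y (sep_Jd p e)

end Main

end Fermat.Agent.S48.Kum
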