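/-
Tower A1 / A1-KUM (helper822): the inputs `Cosets1` (adapter to `H548.NormCoset1`) and `BetaAn1`
of `Kum.normAn1_of_inputs`, hence

  `normAn1_of_deg : DictMero (Γ₁(M)) (F1Bar M) → DegAlpha1 M p → NormAn1 M p hpM`.

`BetaAn1`: if `G` realises `u` for `Γ₁(M)` then `τ ↦ G(pτ)` realises `β u = u(q^p)` for
`Γ₁(M) ∩ Γ₀(p)`:
* holomorphy, invariance (`diag(p,1) γ = γ' diag(p,1)`, `γ' ∈ Γ₁(M)`),
* growth of all translates (through `holN`: `S29.M4b.H822.comp_infAff_mem_holN`),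
* `q`-expansion (`hasQExp_comp_diag`: substitution `q ↦ q^p`).
-/
import Fermat.Agent.S48.Kum.Norm1
import Fermat.Agent.S48.H548.NormCoset1

set_option autoImplicit false

noncomputable section

open CongruenceSubgroup ModularCurve AlgebraicCurve UpperHalfPlane ModularForm
open scoped MatrixGroups Manifold OnePoint

namespace Fermat.Agent.S48.Kum

open Fermat.Agent.S24 Fermat.Agent.S29 Fermat.Agent.S48.F1 Fermat.Agent.S48.H548
  Matrix.SpecialLinearGroup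

local notation "Qbar" => AlgebraicClosure ℚ

/-! ### `Cosets1` -/

theorem cosets1 {M : ℕ} [NeZero M] {p : ℕ} [Fact p.Prime] (hpM : ¬ p ∣ M) : Cosets1 M p hpM :=
  ⟨rep1γ hpM, rep1γ_mem hpM, fun x => ⟨rep1δ hpM x, rep1δ_mem hpM x, rep1γ_mul hpM x⟩,
    fun _ _ h => rep1γ_injective hpM h⟩

/-! ### Substitution `τ ↦ pτ` -/

section Diag

variable {p : ℕ} [NeZero p]

theorem diag_smul_eq_infAff (τ : ℍ) : heckeDiagMatrix p • τ = infAff p 0 1 τ := by
  apply UpperHalfPlane.ext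
  rw [coe_heckeDiagMatrix_smul (NeZero.ne p),
    infAff_coe (Nat.pos_of_ne_zero (NeZero.ne p)) one_pos]
  simp

theorem coeffMap_qExpand_h822 {R S : Type*} [CommRing R] [CommRing S] (f : R →+* S)
    (x : LaurentSeries R) : coeffMap f (qExpand R p x) = qExpand S p (coeffMap f x) := by
  ext k
  by_cases hk : (p : ℤ) ∣ k
  · obtain ⟨m, rfl⟩ := hk
    rw [coeffMap_coeff, qExpand_coeff_mul, qExpand_coeff_mul, coeffMap_coeff]
  · rw [coeffMap_coeff, qExpand_coeff_of_not_dvd p _ hk, qExpand_coeff_of_not_dvd p _ hk,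
      map_zero]

/-- The `q`-expansion of `τ ↦ G(pτ)` is `φ(q^p)`. -/
theorem hasQExp_comp_diag {G : ℍ → ℂ} {φ : LaurentSeries ℂ} (h : H708.HasQExp 1 G φ) :
    H708.HasQExp 1 (fun τ => G (heckeDiagMatrix p • τ)) (qExpand ℂ p φ) := by
  have hp : 0 < p := Nat.pos_of_ne_zero (NeZero.ne p)
  have hol : MDifferentiable 𝓘(ℂ) 𝓘(ℂ) (fun τ => G (heckeDiagMatrix p • τ)) := by
    have e : (fun τ => G (heckeDiagMatrix p • τ)) = fun τ => G (infAff p 0 1 τ) :=
      funext fun τ => by rw [diag_smul_eq_infAff]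
    rw [e]
    exact H564.mdiff_comp_infAff h.mdiff hp one_pos 0
  refine H708.HasQExp.of_hasSum hol ?_
  intro τ
  have hs := h.hasSum (heckeDiagMatrix p • τ)
  have hinj : Function.Injective (fun n : ℤ => (p : ℤ) * n) := by
    intro a b hab
    have hp' : (p : ℤ) ≠ 0 := by exact_mod_cast hp.ne'
    exact mul_left_cancel₀ hp' hab
  have hsupp : ∀ m : ℤ, m ∉ Set.range (fun n : ℤ => (p : ℤ) * n) →
      (qExpand ℂ p φ).coeff m * H708.qh 1 τ ^ m = 0 := by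
    intro m hm
    have hndvd : ¬ (p : ℤ) ∣ m := by
      rintro ⟨k, rfl⟩
      exact hm ⟨k, rfl⟩
    rw [qExpand_coeff_of_not_dvd p φ hndvd, zero_mul]
  rw [← hinj.hasSum_iff hsupp]
  have hq : H708.qh 1 (heckeDiagMatrix p • τ) = H708.qh 1 τ ^ p := by
    rw [H708.qh_apply, H708.qh_apply, coe_heckeDiagMatrix_smul (NeZero.ne p)]
    simp only [Function.Periodic.qParam, Nat.cast_one, Complex.ofReal_one, div_one]
    rw [← Complex.exp_nat_mul]
    congr 1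
    ring
  have hfun : ((fun m : ℤ => (qExpand ℂ p φ).coeff m * H708.qh 1 τ ^ m) ∘
      fun n : ℤ => (p : ℤ) * n)
      = fun n : ℤ => φ.coeff n * H708.qh 1 (heckeDiagMatrix p • τ) ^ n := by
    funext n
    simp only [Function.comp_apply]
    rw [qExpand_coeff_mul, hq, ← zpow_natCast, ← zpow_mul]
  rw [hfun]
  exact hs

end Diag

/-! ### `BetaAn1` -/

section Beta

variable {M : ℕ} [NeZero M] {p : ℕ} [Fact p.Prime]

/-- `diag(p,1) γ = γ' diag(p,1)` with `γ' ∈ Γ₁(M)`, for `γ ∈ Γ₁(M) ∩ Γ₀(p)`, `p ∤ M`. -/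
theorem exists_conj_diag (hpM : ¬ p ∣ M) {γ : SL(2, ℤ)} (hγ : γ ∈ Gamma1p M p) :
    ∃ γ' ∈ Gamma1 M, ∀ τ : ℍ, infAff p 0 1 (γ • τ) = γ' • infAff p 0 1 τ := by
  have hp : p.Prime := Fact.out
  obtain ⟨h1, h0⟩ := Subgroup.mem_inf.mp hγ
  rw [Gamma1_mem] at h1
  rw [Gamma0_mem] at h0
  obtain ⟨c, hc⟩ : (p : ℤ) ∣ γ 1 0 := (ZMod.intCast_zmod_eq_zero_iff_dvd _ _).mp h0
  have hdet := inf_sl_det γ
  let γ' : SL(2, ℤ) := ⟨!![γ 0 0, p * γ 0 1; c, γ 1 1], by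
    rw [Matrix.det_fin_two_of]
    rw [hc] at hdet
    linear_combination hdet⟩
  have hMc : (M : ℤ) ∣ c := by
    have hM : (M : ℤ) ∣ γ 1 0 := (ZMod.intCast_zmod_eq_zero_iff_dvd _ _).mp h1.2.2
    rw [hc] at hM
    have hcop : IsCoprime (M : ℤ) (p : ℤ) :=
      Nat.isCoprime_iff_coprime.mpr ((Nat.Prime.coprime_iff_not_dvd hp).mpr hpM).symm
    exact hcop.dvd_of_dvd_mul_left hM
  refine ⟨γ', ?_, fun τ => ?_⟩
  · rw [Gamma1_mem]
    refine ⟨h1.1, h1.2.1, ?_⟩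
    show ((c : ℤ) : ZMod M) = 0
    exact (ZMod.intCast_zmod_eq_zero_iff_dvd _ _).mpr hMc
  · exact inf_aff_smul_eq (d := p) (a := p) (d' := 1) (b := 0) hp.pos hp.pos one_pos γ γ'
      (by simp [γ']; ring) (by simp [γ']) (by simp [γ', hc]; ring) (by simp [γ']) τ

theorem isGood_comp_diag (hpM : ¬ p ∣ M) {G : ℍ → ℂ} (hG : IsGood (Gamma1 M) G) :
    IsGood (Gamma1p M p) (fun τ => G (heckeDiagMatrix p • τ)) := by
  haveI : NeZero p := ⟨(Fact.out : p.Prime).ne_zero⟩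
  haveI : NeZero (M * p) := ⟨Nat.mul_ne_zero (NeZero.ne M) (NeZero.ne p)⟩
  have e : (fun τ => G (heckeDiagMatrix p • τ)) = fun τ => G (infAff p 0 1 τ) :=
    funext fun τ => by rw [diag_smul_eq_infAff]
  rw [e]
  have hmem : G ∈ H997.holN M :=
    mem_holN_of_isGood (Fermat.Agent.S48.H332.hasLevel_Gamma1 M) hG
  have hmem' : (fun τ => G (infAff p 0 1 τ)) ∈ H997.holN (M * p) :=
    Fermat.Agent.S29.M4b.H822.comp_infAff_mem_holN hmem
  refine Fermat.Agent.S48.H332.isGoodFor_of_mem_holN hmem' ?_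
  intro γ hγ τ
  obtain ⟨γ', hγ', h⟩ := exists_conj_diag hpM hγ
  show G (infAff p 0 1 (γ • τ)) = G (infAff p 0 1 τ)
  rw [h τ]
  exact hG.2.1 γ' hγ' _

/-- **(N2)** `β` is composition with `diag(p,1)` on realisations. -/
theorem betaAn1 (hpM : ¬ p ∣ M) :
    haveI : NeZero p := ⟨(Fact.out : p.Prime).ne_zero⟩
    BetaAn1 M p := by
  haveI : NeZero p := ⟨(Fact.out : p.Prime).ne_zero⟩
  intro u G hu
  refine realises_of_hasQExp (isGood_comp_diag hpM hu.1) ?_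
  have h := hasQExp_comp_diag (p := p) (hu.hasQExp (T_mem_Gamma1 M))
  rw [coe_beta1, coeffMap_qExpand_h822]
  exact h

/-- **The leaf `norm`, reduced to the degree of `α`.** -/
theorem normAn1_of_deg (hpM : ¬ p ∣ M) (hmero : DictMero (Gamma1 M) (F1Bar M))
    (hdeg : haveI : NeZero p := ⟨(Fact.out : p.Prime).ne_zero⟩; DegAlpha1 M p) :
    NormAn1 M p hpM :=
  normAn1_of_inputs hpM hmero (betaAn1 hpM) hdeg (cosets1 hpM)

end Beta

end Fermat.Agent.S48.Kum
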