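/-
Tower A1 / A1-KUM (helper822): the DEGREE of `α`, lower bound from the embeddings, and the
leaf `norm` UNCONDITIONALLY (given `DictMero`).

* `card_le_finrank_of_embeddings` (generic): `|I| ≤ [F' : F]` as soon as the cosets `γ_x`
  (`x : I`) are separated by one realised element of `F'`;
* `degAlpha1 : DictMero (Γ₁(M)) (F1Bar M) → DegAlpha1 M p` (`≤` is `F1.finrankAlong_alpha1_le`,
  helper168);
* `normAn1_of_mero : DictMero (Γ₁(M)) (F1Bar M) → NormAn1 M p hpM`.
-/
import Fermat.Agent.S48.Kum.Norm1In
import Fermat.Agent.S48.F1.RaiseF1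

set_option autoImplicit false
set_option linter.style.haveILetI false

noncomputable section

open CongruenceSubgroup ModularCurve AlgebraicCurve UpperHalfPlane ModularForm
open scoped MatrixGroups Manifold OnePoint

namespace Fermat.Agent.S48.Kum

open Fermat.Agent.S24 Fermat.Agent.S24.H624 Fermat.Agent.S29 Fermat.Agent.S29.M4b
  Fermat.Agent.S29.M4b.H822 Fermat.Agent.S29.H452 Fermat.Agent.S48.F1 Fermat.Agent.S48.H548
  Matrix.SpecialLinearGroup

local notation "Qbar" => AlgebraicClosure ℚ

/-! ### Generic: counting embeddings -/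

section Count

variable {K L E : Type*} [Field K] [Field L] [Field E] [Algebra K L] [FiniteDimensional K L]
  [Algebra.IsSeparable K L]

/-- Pairwise distinct embeddings over `K` are at most `[L : K]` many. -/
theorem card_le_finrank_of_injective (j : K →+* E) {I : Type*} [Fintype I]
    (τ : I → (L →+* E)) (hτ : ∀ i, (τ i).comp (algebraMap K L) = j)
    (hinj : Function.Injective τ) : Fintype.card I ≤ Module.finrank K L := by
  letI : Algebra K E := j.toAlgebra
  have h : Function.Injective (H455.NormEmb_lift j τ hτ) := by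
    intro i i' h
    apply hinj
    ext x
    have := DFunLike.congr_fun h x
    rw [H455.NormEmb_lift_apply, H455.NormEmb_lift_apply] at this
    exact (algebraMap E (AlgebraicClosure E)).injective this
  have := Fintype.card_le_of_injective _ h
  rwa [AlgHom.card K L (AlgebraicClosure E)] at this

end Count

section Generic

variable {Γ Γ' : Subgroup SL(2, ℤ)} {F F' : KF}

/-- **Lower bound for the degree**: `|I| ≤ [F' : F]` if the cosets `γ_x` are separated by a
realised element of `F'`. -/
theorem card_le_finrank_of_embeddings (hT' : ModularGroup.T ∈ Γ') (hle : Γ' ≤ Γ)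
    (hmero : DictMero Γ F) (hmero' : DictMero Γ' F') (ψ : F →ₐ[Kbar] F')
    (hψ : ∀ (u : F) (G : ℍ → ℂ), Realises Γ F u G → Realises Γ' F' (ψ u) G)
    {I : Type*} [Fintype I] (γ : I → SL(2, ℤ)) (hγ : ∀ x, γ x ∈ Γ)
    (hfin : letI := algebraAlong ψ; FiniteDimensional F F')
    (hdist : ∃ (w : F') (W : ℍ → ℂ), Realises Γ' F' w W ∧
      ∀ x y : I, (∀ τ : ℍ, W (γ x • τ) = W (γ y • τ)) → x = y) :
    Fintype.card I ≤ (letI := algebraAlong ψ; Module.finrank F F') := by
  classical
  have hT : ModularGroup.T ∈ Γ := hle hT'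
  letI := algebraAlong ψ
  haveI : FiniteDimensional F F' := hfin
  have hdetγ : ∀ x, 0 < (mapGL ℝ (γ x) : GL (Fin 2) ℝ).det.val := fun x => det_coe_SL_pos (γ x)
  let τ : I → (F' →+* MerH) := fun x =>
    ((merGL (mapGL ℝ (γ x)) (hdetγ x) : MerH ≃+* MerH) : MerH →+* MerH).comp (an hT' hmero')
  have hτ_real : ∀ (x : I) (w : F') (W : ℍ → ℂ) (hw : Realises Γ' F' w W),
      τ x w = merOf (fun t => W (γ x • t))
        (hw.1.1.comp (mdifferentiable_smul (hdetγ x))) := by
    intro x w W hw
    show merGL _ _ (an hT' hmero' w) = _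
    rw [an_eq_of_realises hT' hmero' hw, merGL_merOf]
    rfl
  have hτ : ∀ x, (τ x).comp (algebraMap F F') = an hT hmero := by
    intro x
    apply ringHom_ext_of_realised hT hmero
    intro v V hv
    show τ x (ψ v) = _
    rw [hτ_real x (ψ v) V (hψ v V hv), an_eq_of_realises hT hmero hv]
    apply merOf_congr
    funext t
    exact hv.1.2.1 _ (hγ x) t
  have hinj : Function.Injective τ := by
    intro x y hxy
    obtain ⟨w, W, hw, hsep⟩ := hdist
    apply hsep
    have h1 := RingHom.congr_fun hxy w
    rw [hτ_real x w W hw, hτ_real y w W hw] at h1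
    exact fun t => congrFun (merOf_injective h1) t
  haveI hsep : Algebra.IsSeparable F F' := Algebra.IsSeparable.of_integral F F'
  exact card_le_finrank_of_injective (an hT hmero) τ hτ hinj

end Generic

/-! ### The degree of `α` -/

section Deg

variable {M : ℕ} [NeZero M] {p : ℕ} [Fact p.Prime]

/-- **(N3)** `[ℚ̄·F₁(M;p) : ℚ̄·F₁(M)] = p + 1`. -/
theorem degAlpha1 (hpM : ¬ p ∣ M) (hmero : DictMero (Gamma1 M) (F1Bar M)) :
    haveI : NeZero p := ⟨(Fact.out : p.Prime).ne_zero⟩
    DegAlpha1 M p := by
  haveI : NeZero p := ⟨(Fact.out : p.Prime).ne_zero⟩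
  have hp : p.Prime := Fact.out
  apply le_antisymm
  · exact finrankAlong_alpha1_le M p (NeZero.ne M) hp hpM
  · have hfin := (finiteAlong_alpha1_beta1 M p (NeZero.ne M) hp hpM).1
    have h := card_le_finrank_of_embeddings (T_mem_Gamma1p M p) inf_le_left hmero
      (dictMero1p hmero (betaAn1 hpM)) (alpha1 Qbar M p) (fun v V hv => alpha_realises hv)
      (rep1γ hpM) (rep1γ_mem hpM) hfin
      ⟨jpElt M p, H997.Jd p, realises_jpElt M p,
        fun x y e => rep1γ_injective hpM (sep_Jd p e)⟩
    rw [card_onePoint_zmod] at h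
    exact h

/-- **The leaf `norm`** (given `DictMero`). -/
theorem normAn1_of_mero (hpM : ¬ p ∣ M) (hmero : DictMero (Gamma1 M) (F1Bar M)) :
    NormAn1 M p hpM :=
  normAn1_of_deg hpM hmero (degAlpha1 hpM hmero)

end Deg

end Fermat.Agent.S48.Kum
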