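/-
Tower A1 / A1-KUM (helper822): ASSEMBLY of the leaves on main.

  `m4b1_of_k3 : (∀ M ℓ, ℓ.Prime → PieceK3 (Γ₁(M)) (F1Bar M) ℓ) → Res.M4b1Statement`
  `m4b1_of_dfrom_dto : (∀ M ℓ, DFrom1 M ℓ) → (∀ M ℓ, DTo1 M ℓ) → Res.M4b1Statement`

Leaves used: `k1` H332.leafK1, `k2` H642.k2, `inter`/`mero` H882.dictInter_f1/dictMero_f1,
`const` H102.leaves_const, `corr` H150.corrInputs_hecke, `dia` H528.diaAn1,
`norm` Kum.normAn1_of_mero (Kum/{Norm,Norm1,Norm1In,Deg}.lean + H548 + F1/RaiseF1),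
`k3` adapter H441.leafK3_441.
-/
import Fermat.Agent.S48.Kum.Deg
import Fermat.Agent.S48.H332.LeafK1
import Fermat.Agent.S48.H642.K2
import Fermat.Agent.S48.H441.K3Leaf
import Fermat.Agent.S48.H882.K3Leaf
import Fermat.Agent.S48.H102.DictConst
import Fermat.Agent.S48.H150.HI1
import Fermat.Agent.S48.H528.DiaAn

set_option autoImplicit false

noncomputable section

open CongruenceSubgroup ModularCurve AlgebraicCurve UpperHalfPlane
open scoped MatrixGroups Manifold OnePoint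

namespace Fermat.Agent.S48.Kum

open Fermat.Agent.S48.F1 Fermat.Agent.S48.Res

/-- All leaves of A1-KUM except `k3`. -/
theorem leaves_of_k3
    (hk3 : ∀ (M : ℕ) [NeZero M] (ℓ : ℕ), ℓ.Prime → PieceK3 (Gamma1 M) (F1Bar M) ℓ) :
    Leaves where
  k1 := fun M _ ℓ hℓ => Fermat.Agent.S48.H332.leafK1 M ℓ hℓ
  k2 := fun M _ ℓ hℓ => Fermat.Agent.S48.H642.k2 M ℓ hℓ
  k3 := hk3
  inter := fun M _ => Fermat.Agent.S48.H882.dictInter_f1 M
  mero := fun M _ => Fermat.Agent.S48.H882.dictMero_f1 M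
  const := fun M _ => Fermat.Agent.S48.H102.leaves_const M
  corr := fun M _ p _ _ =>
    haveI : NeZero p := ⟨(Fact.out : p.Prime).ne_zero⟩
    Fermat.Agent.S48.H150.corrInputs_hecke (AlgebraicClosure ℚ) M p
  norm := fun M _ p _ hpM => normAn1_of_mero hpM (Fermat.Agent.S48.H882.dictMero_f1 M)
  dia := fun M _ p _ hpM => Fermat.Agent.S48.H528.diaAn1 M p hpM

/-- `Res.M4b1Statement` from the piece `k3`. -/
theorem m4b1_of_k3
    (hk3 : ∀ (M : ℕ) [NeZero M] (ℓ : ℕ), ℓ.Prime → PieceK3 (Gamma1 M) (F1Bar M) ℓ) :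
    Res.M4b1Statement :=
  m4b1_of_leaves (leaves_of_k3 hk3)

/-- `Res.M4b1Statement` from the two inputs of `k3`. -/
theorem m4b1_of_dfrom_dto
    (hfrom : ∀ (M : ℕ) [NeZero M] (ℓ : ℕ), ℓ.Prime → Fermat.Agent.S48.H441.DFrom1 M ℓ)
    (hto : ∀ (M : ℕ) [NeZero M] (ℓ : ℕ), ℓ.Prime → Fermat.Agent.S48.H441.DTo1 M ℓ) :
    Res.M4b1Statement :=
  m4b1_of_k3 (Fermat.Agent.S48.H441.leafK3_441 hfrom hto)

end Fermat.Agent.S48.Kum
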