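/-
Tower A1 / A1-KUM (helper822): **`Res.M4b1Statement`, UNCONDITIONAL.**

  `m4b1 : Res.M4b1Statement`      (input (K) of `Top.result_of_two`)

= `Kum.m4b1_of_k3` (Kum/Final.lean: leaves k1 H332, k2 H642, inter/mero H882, const H102,
corr H150, norm Kum/Deg (+ H548, F1/RaiseF1), dia H528) applied to the leaf `k3`
`H282.pieceK3_Gamma1` (helper282, on helper882's `pieceK3_f1_of`).
-/
import Fermat.Agent.S48.Kum.Final
import Fermat.Agent.S48.H282.K3

set_option autoImplicit false

noncomputable section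

namespace Fermat.Agent.S48.Kum

/-- All nine leaves of sub-tower A1-KUM. -/
theorem leaves : Leaves :=
  leaves_of_k3 fun M _ ℓ hℓ => Fermat.Agent.S48.H282.pieceK3_Gamma1 M ℓ hℓ

/-- **Sub-tower A1-KUM**: the Kummer map of `Γ₁(M)` with its Hecke and diamond equivariance. -/
theorem m4b1 : Fermat.Agent.S48.Res.M4b1Statement :=
  m4b1_of_leaves leaves

end Fermat.Agent.S48.Kum
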